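import Fermat.Agent.LT.Mp.Hecke

/-!
# The context attached to a level and a type at the bad places
-/

set_option autoImplicit false
set_option linter.unusedVariables false

universe w u u' i'

namespace Fermat.Agent.LT.Mp

open Matrix Filter Fermat.Agent.LT.Loc Fermat.Agent.LT.Glob NumberField
  IsDedekindDomain WithZero
open scoped MatrixGroups

variable {k E : Type u} [Field k] [NumberField k] [Field E] [NumberField E] [Algebra k E]
  {σ : E ≃ₐ[k] E}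

/-- the places dividing `N` -/
noncomputable def plN (k : Type u) [Field k] [NumberField k] {N : ℕ} (hN : N ≠ 0) :
    Finset (HeightOneSpectrum (𝓞 k)) := by
  classical
  exact (Ideal.finite_factors (R := 𝓞 k) (I := Ideal.span {(N : 𝓞 k)}) (by
    rw [Ne, Ideal.zero_eq_bot, Ideal.span_singleton_eq_bot]
    exact Nat.cast_ne_zero.2 hN)).toFinset

theorem mem_plN {N : ℕ} (hN : N ≠ 0) {v : HeightOneSpectrum (𝓞 k)} :
    v ∈ plN k hN ↔ (N : 𝓞 k) ∈ v.asIdeal := by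
  rw [plN, Set.Finite.mem_toFinset, Set.mem_ofPred_eq, Ideal.dvd_span_singleton]

/-- a natural number contained in given places -/
theorem exists_nat_mem {S : Set (HeightOneSpectrum (𝓞 k))} (hS : S.Finite) :
    ∃ N : ℕ, N ≠ 0 ∧ ∀ v ∈ S, (N : 𝓞 k) ∈ v.asIdeal := by
  classical
  refine ⟨∏ v ∈ hS.toFinset, Ideal.absNorm v.asIdeal, ?_, fun v hv => ?_⟩
  · refine Finset.prod_ne_zero_iff.2 fun v _ => ?_
    rw [Ne, Ideal.absNorm_eq_zero_iff]
    exact v.ne_bot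
  · rw [Nat.cast_prod]
    exact Ideal.mem_of_dvd _ (Finset.dvd_prod_of_mem _ (hS.mem_toFinset.2 hv))
      (Ideal.absNorm_mem _)

/-- a natural number containing the ramified places -/
theorem exists_unr (h : Gal3 σ) : ∃ N : ℕ, N ≠ 0 ∧ ∀ M : ℕ, N ∣ M →
    ∀ v : HeightOneSpectrum (𝓞 k), (M : 𝓞 k) ∉ v.asIdeal → IsUnr σ v := by
  obtain ⟨N, hN, h1⟩ := exists_nat_mem (k := k) (S := {v | ¬ IsUnr σ v})
    (Filter.eventually_cofinite.1 (Unit.eventually_unit h))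
  refine ⟨N, hN, fun M hM v hv => ?_⟩
  by_contra hcon
  exact hv (Ideal.mem_of_dvd _ (Nat.cast_dvd_cast hM) (h1 v hcon))

/-- automorphisms preserve the principal levels -/
theorem map_mem_PK {F : Type u} [Field F] {ι : Type i'} {L : LocFam.{w} F ι} (A : LocFam.Auto L)
    {v : ι} {N : ℕ} {g : L.G v} (hg : g ∈ PK (L.O v) N) : A.g v g ∈ PK (L.O v) N := by
  obtain ⟨g, hg, rfl⟩ := hg
  refine ⟨_, ⟨A.map_mem_GLO hg.1, fun i j => ?_⟩, rfl⟩
  obtain ⟨y, hy, e⟩ := hg.2 i j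
  refine ⟨A.s v y, (A.mem_O_iff v _).2 hy, ?_⟩
  have h1 : ((GeneralLinearGroup.map (A.s v : L.R v →+* L.R v) g : GL (Fin 2) (L.R v)) :
      Matrix (Fin 2) (Fin 2) (L.R v)) i j = A.s v (g i j) := rfl
  have h2 : (1 : Matrix (Fin 2) (Fin 2) (L.R v)) i j =
      A.s v ((1 : Matrix (Fin 2) (Fin 2) (L.R v)) i j) := by
    rw [Matrix.one_apply]
    split_ifs <;> simp
  rw [h1, h2, ← map_sub, e, map_mul, map_natCast]

theorem pres_PK (v : HeightOneSpectrum (𝓞 k)) (n : ℕ) :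
    ∀ g ∈ PK (OE E v) n, ProjGenLinGroup.map ((autoE σ).s v : RE E v →+* RE E v) g ∈
      PK (OE E v) n := fun _ hg => map_mem_PK (autoE σ) hg

/-- matching data for a function of level `N ^ n1` -/
def MatchBad (σ : E ≃ₐ[k] E) (v : HeightOneSpectrum (𝓞 k)) (N n1 n : ℕ)
    (F : BiInv (PK (OE E v) (N ^ n1))) : Prop :=
  ∃ f : BiInv (PK (Oc (K := k) v) (N ^ n)), f.Fin ∧
    IsMatch.{u, u} (strE E v) ((autoE σ).s v : RE E v →+* RE E v) (pres_PK v (N ^ n1)) F f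

/-- **the data of a context**, from a level `N`, functions at the places dividing `N` and an
auxiliary place `v0` -/
noncomputable def mkBad {N : ℕ} (hN : N ≠ 0) (n1 n : ℕ)
    (hunr : ∀ v : HeightOneSpectrum (𝓞 k), (N : 𝓞 k) ∉ v.asIdeal → IsUnr σ v)
    (F : ∀ v : HeightOneSpectrum (𝓞 k), (N : 𝓞 k) ∈ v.asIdeal → BiInv (PK (OE E v) (N ^ n1)))
    (hF : ∀ v hv, (F v hv).Fin) (hm : ∀ v hv, MatchBad σ v N n1 n (F v hv))
    (v0 : HeightOneSpectrum (𝓞 k)) (h0 : (N : 𝓞 k) ∉ v0.asIdeal) (hs : IsSpl σ v0) : Bad σ where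
  bad := plN k hN
  unr v hv := hunr v fun h => hv ((mem_plN hN).2 h)
  pd v hv := PD.fixed (PK (OE E v) (N ^ n1)) (PK (Oc (K := k) v) (N ^ n))
    (PK_le_PO _ _) (PK_le_PO _ _) ⟨N ^ n1, pow_ne_zero _ hN, le_rfl⟩ ⟨N ^ n, pow_ne_zero _ hN, le_rfl⟩
    (pres_PK v (N ^ n1)) (F v ((mem_plN hN).1 hv)) (hm v ((mem_plN hN).1 hv)).choose
    (hF v ((mem_plN hN).1 hv)) (hm v ((mem_plN hN).1 hv)).choose_spec.1
    (hm v ((mem_plN hN).1 hv)).choose_spec.2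
  v0 := v0
  v0_bad hv := h0 ((mem_plN hN).1 hv)
  v0_spl := hs

section Facts

variable (h : Gal3 σ) {N : ℕ} (hN : N ≠ 0) {n1 n : ℕ}
    (hunr : ∀ v : HeightOneSpectrum (𝓞 k), (N : 𝓞 k) ∉ v.asIdeal → IsUnr σ v)
    {F : ∀ v : HeightOneSpectrum (𝓞 k), (N : 𝓞 k) ∈ v.asIdeal → BiInv (PK (OE E v) (N ^ n1))}
    (hF : ∀ v hv, (F v hv).Fin) (hm : ∀ v hv, MatchBad σ v N n1 n (F v hv))
    {v0 : HeightOneSpectrum (𝓞 k)} (h0 : (N : 𝓞 k) ∉ v0.asIdeal) (hs : IsSpl σ v0)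
    {v : HeightOneSpectrum (𝓞 k)}

theorem mem_mkBad_bad : v ∈ (mkBad hN n1 n hunr F hF hm v0 h0 hs).bad ↔ (N : 𝓞 k) ∈ v.asIdeal :=
  mem_plN hN

theorem mkBad_v0 : (mkBad hN n1 n hunr F hF hm v0 h0 hs).v0 = v0 := rfl

theorem mkBad_UE (hv : (N : 𝓞 k) ∈ v.asIdeal) :
    ((mkBad hN n1 n hunr F hF hm v0 h0 hs).X h).UE.U v = PK (OE E v) (N ^ n1) := by
  change ((mkBad hN n1 n hunr F hF hm v0 h0 hs).P h v).U = _
  rw [Bad.P_bad h _ ((mem_plN hN).2 hv)]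
  rfl

theorem mkBad_Uk (hv : (N : 𝓞 k) ∈ v.asIdeal) :
    ((mkBad hN n1 n hunr F hF hm v0 h0 hs).X h).Uk.U v = PK (Oc (K := k) v) (N ^ n) := by
  change ((mkBad hN n1 n hunr F hF hm v0 h0 hs).P h v).V = _
  rw [Bad.P_bad h _ ((mem_plN hN).2 hv)]
  rfl

theorem mkBad_F₀ (hv : (N : 𝓞 k) ∈ v.asIdeal) (g : PGL(2, RE E v)) :
    (((mkBad hN n1 n hunr F hF hm v0 h0 hs).X h).F₀ v).f g = (F v hv).f g := by
  have key : ∀ (P : PDK σ v)
      (hP : P = (mkBad hN n1 n hunr F hF hm v0 h0 hs).pd v ((mem_plN hN).2 hv)),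
      P.F.f g = (F v hv).f g := by
    rintro _ rfl
    rfl
  exact key _ (Bad.P_bad h _ ((mem_plN hN).2 hv))

theorem mkBad_not_spl (hv : (N : 𝓞 k) ∈ v.asIdeal) :
    v ∉ ((mkBad hN n1 n hunr F hF hm v0 h0 hs).X h).spl := by
  have key : ∀ (P : PDK σ v)
      (hP : P = (mkBad hN n1 n hunr F hF hm v0 h0 hs).pd v ((mem_plN hN).2 hv)), ¬ P.vary := by
    rintro _ rfl
    exact id
  exact key _ (Bad.P_bad h _ ((mem_plN hN).2 hv))

/-- the matched function at the bad places is always the given one -/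
theorem mkBad_pE (hv : (N : 𝓞 k) ∈ v.asIdeal)
    (G : ((mkBad hN n1 n hunr F hF hm v0 h0 hs).X h).Sym) (g : PGL(2, RE E v)) :
    (Ctx.pE G v).f g = (F v hv).f g := by
  rw [Ctx.pE_of_not_mem _ (mkBad_not_spl h hN hunr hF hm h0 hs hv)]
  exact mkBad_F₀ h hN hunr hF hm h0 hs hv g

end Facts

end Fermat.Agent.LT.Mp
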