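import Fermat.Agent.LT.Mp.Gf
import Fermat.Agent.LT.Glob.Twist
import Fermat.Agent.LT.Op.Tw

/-!
# The action of the automorphism on the symbols
-/

set_option autoImplicit false
set_option linter.unusedVariables false

universe w u u' i'

namespace Fermat.Agent.LT.Glob.LocFam.GFun

open Matrix Filter Fermat.Agent.LT.Loc

variable {F : Type u} [Field F] {ι : Type i'} {L : LocFam.{w} F ι} {U : L.Level}

/-- the kernel and the twist -/
theorem ker_dmap {A : Auto L} (h : A.Pres U) {φ ψ : GFun U}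
    (e : ∀ v g, (ψ.f v).f (A.g v g) = (φ.f v).f g) (x y : D U) :
    ψ.ker (Auto.dmap h x) (Auto.dmap h y) = φ.ker x y := by
  rw [ker_apply, ker_apply]
  refine finprod_congr fun v => ?_
  rw [Auto.dmap_apply, Auto.dmap_apply]
  generalize x v = x
  generalize y v = y
  induction x using QuotientGroup.induction_on with
  | H x =>
    induction y using QuotientGroup.induction_on with
    | H y =>
      rw [Auto.xmap_mk, Auto.xmap_mk, Hk.ker_mk, Hk.ker_mk, ← map_inv, ← map_mul]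
      exact e v _

/-- the twist of the kernel of a factorizable function -/
theorem tw_toDKer [NumberField F] {A : Auto L} (hc : A.IsCubic) (h : A.Pres U) {φ ψ : GFun U}
    (e : ∀ v g, (ψ.f v).f (A.g v g) = (φ.f v).f g) :
    Op.tw (Auto.twist hc h) φ.toDKer = ψ.toDKer := by
  apply Sp.DKer.ext'
  intro x y
  change φ.ker ((Auto.twist hc h).dm.symm x) ((Auto.twist hc h).dm.symm y) = ψ.ker x y
  have hx : ∀ x, Auto.dmap h ((Auto.twist hc h).dm.symm x) = x := fun x => hc.dmap h x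
  rw [← ker_dmap h e, hx, hx]

end Fermat.Agent.LT.Glob.LocFam.GFun

namespace Fermat.Agent.LT.Mp

open Matrix Filter Fermat.Agent.LT.Loc Fermat.Agent.LT.Glob
open scoped MatrixGroups

variable {k : Type u} {E : Type u'} [Field k] [Field E] [Algebra k E] {ι : Type i'}
  {X : Ctx.{w} k E ι}

namespace Ctx

/-- the rotation of a symbol -/
def Sym.rot (G : X.Sym) : X.Sym where
  G v j := G.G v (j + 1)
  mem v j := G.mem v (j + 1)
  off v hv j := G.off v hv (j + 1)
  unit := G.unit.mono fun v h j => h (j + 1)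

theorem Sym.rot_G (G : X.Sym) (v : ι) (j : Fin 3) : G.rot.G v j = G.G v (j + 1) := rfl

theorem Sym.rot_one : (1 : X.Sym).rot = 1 := rfl

theorem rot_single (v : ι) (hv : v ∈ X.spl) (j : Fin 3) (F : BiInv (X.Uk.U v))
    (hF : F ∈ (X.alg v).carrier) : (single v hv (j + 1) F hF).rot = single v hv j F hF := by
  apply Sym.ext
  funext v' l
  rw [Sym.rot_G]
  by_cases h : v' = v
  · subst h
    by_cases hl : l = j
    · subst hl
      rw [single_G_self, single_G_self]
    · rw [single_G_ne _ _ _ _ hl, single_G_ne]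
      intro hcon
      exact hl (add_right_cancel hcon)
  · rw [single_G_off _ _ _ _ _ h, single_G_off _ _ _ _ _ h]

theorem gE_rot (hc : X.A.IsCubic) (G : X.Sym) (v : ι) (hv : v ∈ X.spl) (g : X.LE.G v) :
    (gE G.rot v hv).f (X.A.g v g) = (gE G v hv).f g := by
  have h3 := hc.g_g_g v g
  rw [gE, gE, tens3_f, tens3_f]
  change (G.rot.G v 0).f (ProjGenLinGroup.map (X.π v hv) (X.A.g v g)) *
    (G.rot.G v 1).f (ProjGenLinGroup.map (X.π v hv) (X.A.g v (X.A.g v g))) *
    (G.rot.G v 2).f (ProjGenLinGroup.map (X.π v hv) (X.A.g v (X.A.g v (X.A.g v g)))) =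
    (G.G v 0).f (ProjGenLinGroup.map (X.π v hv) g) *
    (G.G v 1).f (ProjGenLinGroup.map (X.π v hv) (X.A.g v g)) *
    (G.G v 2).f (ProjGenLinGroup.map (X.π v hv) (X.A.g v (X.A.g v g)))
  rw [h3, Sym.rot_G, Sym.rot_G, Sym.rot_G]
  change (G.G v 1).f _ * (G.G v 2).f _ * (G.G v 0).f _ = _
  ring

theorem unit_g_eq (hc : X.A.IsCubic) (v : ι) (g : X.LE.G v) :
    (BiInv.unit (X.UE.U v)).f (X.A.g v g) = (BiInv.unit (X.UE.U v)).f g := by
  classical
  have h3 := hc.g_g_g v g
  rw [BiInv.unit_f, BiInv.unit_f]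
  refine if_congr ⟨fun h => ?_, fun h => X.pres v g h⟩ rfl rfl
  rw [← h3]
  exact X.pres v _ (X.pres v _ h)

theorem mE_rot (hc : X.A.IsCubic) (G : X.Sym) (v : ι) (g : X.LE.G v) :
    (mE G.rot v).f (X.A.g v g) = (mE G v).f g := by
  by_cases hv : v ∈ X.spl
  · rw [mE_of_mem _ hv, mE_of_mem _ hv, gE_rot hc]
  · rw [mE_of_not_mem _ hv, mE_of_not_mem _ hv, unit_g_eq hc]

theorem pE_rot (hc : X.A.IsCubic) (hF : ∀ v ∉ X.spl, ∀ g, (X.F₀ v).f (X.A.g v g) = (X.F₀ v).f g)
    (G : X.Sym) (v : ι) (g : X.LE.G v) : (pE G.rot v).f (X.A.g v g) = (pE G v).f g := by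
  by_cases hv : v ∈ X.spl
  · rw [pE_of_mem _ hv, pE_of_mem _ hv, gE_rot hc]
  · rw [pE_of_not_mem _ hv, pE_of_not_mem _ hv, hF v hv]

variable [NumberField E]

/-- **the twist of the multipliers** -/
theorem tw_ME (hc : X.A.IsCubic) (G : X.Sym) :
    Op.tw (LocFam.Auto.twist hc X.pres) (ME G).toDKer = (ME G.rot).toDKer :=
  LocFam.GFun.tw_toDKer hc X.pres fun v g => mE_rot hc G v g

/-- **the twist of the matched functions** -/
theorem tw_PE (hc : X.A.IsCubic) (hF : ∀ v ∉ X.spl, ∀ g, (X.F₀ v).f (X.A.g v g) = (X.F₀ v).f g)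
    (G : X.Sym) :
    Op.tw (LocFam.Auto.twist hc X.pres) (PE G).toDKer = (PE G.rot).toDKer :=
  LocFam.GFun.tw_toDKer hc X.pres fun v g => pE_rot hc hF G v g

end Ctx

end Fermat.Agent.LT.Mp
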