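import Fermat.Agent.LT.Mp.Hecke
import Fermat.Agent.LT.Mp.Rot
import Fermat.Agent.LT.Brg.TG
import Fermat.Agent.LT.Fou.TwistE

/-!
# The commuting family of the comparison
-/

set_option autoImplicit false
set_option linter.unusedVariables false

universe w u u' i'

namespace Fermat.Agent.LT.Mp

open Matrix Filter Fermat.Agent.LT.Loc Fermat.Agent.LT.Glob NumberField
  IsDedekindDomain WithZero
open scoped MatrixGroups

section Abs

variable {k : Type u} {E : Type u'} [Field k] [Field E] [Algebra k E] {ι : Type i'}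
  {X : Ctx.{w} k E ι}

/-- the symbols with trivial second and third component at `v₀` -/
def Ctx.V0Data.pureS (d : Ctx.V0Data X) : Submonoid X.Sym where
  carrier := {G | d.Pure G}
  one_mem' := d.pure_one
  mul_mem' := fun h h' => Ctx.V0Data.Pure.mul h h'

theorem Ctx.V0Data.mem_pureS (d : Ctx.V0Data X) {G : X.Sym} : G ∈ d.pureS ↔ d.Pure G := Iff.rfl

/-- the powers of `U` -/
noncomputable def Ctx.V0Data.uS (d : Ctx.V0Data X) (m : ℕ) : d.pureS := ⟨d.u m, d.pure_u m⟩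

/-- `Z` -/
noncomputable def Ctx.V0Data.zS (d : Ctx.V0Data X) : d.pureS := ⟨d.z, d.pure_z⟩

end Abs

variable {k E : Type u} [Field k] [NumberField k] [Field E] [NumberField E] [Algebra k E]
  {σ : E ≃ₐ[k] E} (h : Gal3 σ) (b : Bad σ)

/-- the index set of the Hecke symbols: a good split place and an index -/
def Jsp (b : Bad σ) : Type u :=
  {p : HeightOneSpectrum (𝓞 k) × Fin 3 // p.1 ∉ b.bad ∧ p.1 ≠ b.v0 ∧ IsSpl σ p.1}

namespace Jsp

variable {b}

/-- the place -/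
def v (j : Jsp b) : HeightOneSpectrum (𝓞 k) := j.1.1

/-- the index -/
def l (j : Jsp b) : Fin 3 := j.1.2

theorem nbad (j : Jsp b) : j.v ∉ b.bad := j.2.1
theorem ne_v0 (j : Jsp b) : j.v ≠ b.v0 := j.2.2.1
theorem spl (j : Jsp b) : IsSpl σ j.v := j.2.2.2

/-- constructor -/
def mk' {v : HeightOneSpectrum (𝓞 k)} (hb : v ∉ b.bad) (h0 : v ≠ b.v0) (hs : IsSpl σ v)
    (l : Fin 3) : Jsp b := ⟨(v, l), hb, h0, hs⟩

/-- the next index -/
def next (j : Jsp b) : Jsp b := mk' j.nbad j.ne_v0 j.spl (j.l + 1)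

@[simp] theorem mk'_v {v : HeightOneSpectrum (𝓞 k)} (hb : v ∉ b.bad) (h0 : v ≠ b.v0)
    (hs : IsSpl σ v) (l : Fin 3) : (mk' hb h0 hs l).v = v := rfl
@[simp] theorem mk'_l {v : HeightOneSpectrum (𝓞 k)} (hb : v ∉ b.bad) (h0 : v ≠ b.v0)
    (hs : IsSpl σ v) (l : Fin 3) : (mk' hb h0 hs l).l = l := rfl
@[simp] theorem next_v (j : Jsp b) : j.next.v = j.v := rfl
@[simp] theorem next_l (j : Jsp b) : j.next.l = j.l + 1 := rfl

end Jsp

include h in
/-- the Hecke symbol of an index -/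
noncomputable def Bad.sJ (j : Jsp b) : (b.X h).Sym := b.sT h j.nbad j.ne_v0 j.spl j.l

theorem Bad.sJ_mk' {v : HeightOneSpectrum (𝓞 k)} (hb : v ∉ b.bad) (h0 : v ≠ b.v0)
    (hs : IsSpl σ v) (l : Fin 3) : b.sJ h (Jsp.mk' hb h0 hs l) = b.sT h hb h0 hs l := rfl

theorem Bad.sT_G_off {v v' : HeightOneSpectrum (𝓞 k)} (hb : v ∉ b.bad) (h0 : v ≠ b.v0)
    (hs : IsSpl σ v) (j l : Fin 3) (hv : v' ≠ v) :
    (b.sT h hb h0 hs j).G v' l = BiInv.unit _ := Ctx.single_G_off _ _ _ _ _ hv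

/-- the Hecke symbols are trivial at `v0` -/
theorem Bad.sJ_G_v0 (j : Jsp b) (l : Fin 3) : (b.sJ h j).G b.v0 l = BiInv.unit _ :=
  b.sT_G_off h _ _ _ _ _ j.ne_v0.symm

theorem Bad.pure_sJ (j : Jsp b) : (b.v0Data h).Pure (b.sJ h j) :=
  ⟨b.sJ_G_v0 h j 1, b.sJ_G_v0 h j 2⟩

/-- **the family of symbols** -/
noncomputable def Bad.sF : Option (Jsp b) → (b.v0Data h).pureS
  | none => (b.v0Data h).zS
  | some j => ⟨b.sJ h j, b.pure_sJ h j⟩

@[simp] theorem Bad.sF_none : ((b.sF h none : (b.v0Data h).pureS) : (b.X h).Sym) =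
    (b.v0Data h).z := rfl

@[simp] theorem Bad.sF_some (j : Jsp b) : ((b.sF h (some j) : (b.v0Data h).pureS) :
    (b.X h).Sym) = b.sJ h j := rfl

/-- all symbols with index different from `none` are trivial at `v0` -/
theorem Bad.sF_G_v0 {j : Option (Jsp b)} (hj : j ≠ none) (l : Fin 3) :
    ((b.sF h j : (b.v0Data h).pureS) : (b.X h).Sym).G b.v0 l = BiInv.unit _ := by
  cases j with
  | none => exact absurd rfl hj
  | some j => exact b.sJ_G_v0 h j l

section Adj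

variable [IsTotallyComplex k] [IsTotallyComplex E]

theorem Bad.ME_sJ_adj (j : Jsp b) :
    (Ctx.ME (b.sJ h j)).toDKer.adj = (Ctx.ME (b.sJ h j)).toDKer := by
  rw [← LocFam.GFun.toDKer_adj, Bad.sJ, b.ME_sT' h j.nbad j.ne_v0 j.spl j.l]
  congr 1
  refine (LocFam.GFun.adj_single (L := locE k E) (U := (b.X h).UE) j.v _).trans ?_
  rw [Brg.TTh_adj]

theorem Bad.MK_sJ_adj (j : Jsp b) :
    (Ctx.MK (b.sJ h j)).toDKer.adj = (Ctx.MK (b.sJ h j)).toDKer := by
  rw [← LocFam.GFun.toDKer_adj, Bad.sJ, b.MK_sT h j.nbad j.ne_v0 j.spl j.l (unifOc_reps j.v)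
    (valued_unif j.v)]
  congr 1
  refine (LocFam.GFun.adj_single (L := locK (F := k)) (U := (b.X h).Uk) j.v _).trans ?_
  rw [Brg.TTh_adj]

/-- **the family is self adjoint on the `E`-side** -/
theorem Bad.ME_sF_adj (hz : (Ctx.ME (b.v0Data h).z).toDKer.adj = (Ctx.ME (b.v0Data h).z).toDKer)
    (j : Option (Jsp b)) :
    (Ctx.ME (b.sF h j : (b.v0Data h).pureS).1).toDKer.adj =
      (Ctx.ME (b.sF h j : (b.v0Data h).pureS).1).toDKer := by
  cases j with
  | none => exact hz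
  | some j => exact b.ME_sJ_adj h j

/-- **the family is self adjoint on the `k`-side** -/
theorem Bad.MK_sF_adj (hz : (Ctx.MK (b.v0Data h).z).toDKer.adj = (Ctx.MK (b.v0Data h).z).toDKer)
    (j : Option (Jsp b)) :
    (Ctx.MK (b.sF h j : (b.v0Data h).pureS).1).toDKer.adj =
      (Ctx.MK (b.sF h j : (b.v0Data h).pureS).1).toDKer := by
  cases j with
  | none => exact hz
  | some j => exact b.MK_sJ_adj h j

end Adj

/-! ### the twist -/

theorem Bad.isCubic : (b.X h).A.IsCubic := by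
  refine ⟨h.cube, fun v x => ?_⟩
  have hc : σ * σ * σ = 1 := AlgEquiv.ext fun b => h.cube b
  show sHom v σ (sHom v σ (sHom v σ x)) = x
  rw [sHom_comp, sHom_comp, hc, sHom_one]

theorem Bad.rot_sJ_next (j : Jsp b) : (b.sJ h j.next).rot = b.sJ h j :=
  Ctx.rot_single j.v (b.mem_spl h j.nbad j.ne_v0 j.spl) j.l
    (LocFam.TTb (L := (b.X h).Lk) (U := (b.X h).Uk) (unif j.v) (b.Uk_good h j.nbad j.ne_v0))
    (b.TTb_mem h j.nbad j.ne_v0 j.spl)

/-- **the twist of the Hecke operators** -/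
theorem Bad.tw_ME_sJ (j : Jsp b) :
    Op.tw (LocFam.Auto.twist (b.isCubic h) (b.X h).pres) (Ctx.ME (b.sJ h j.next)).toDKer =
      (Ctx.ME (b.sJ h j)).toDKer := by
  have h1 := Ctx.tw_ME (b.isCubic h) (b.sJ h j.next)
  rw [b.rot_sJ_next h j] at h1
  exact h1

/-- **σ-stability of the family** -/
theorem Bad.exists_tw_sF {j : Option (Jsp b)} (hj : j ≠ none) : ∃ j' : Option (Jsp b), j' ≠ none ∧
    j'.map Jsp.v = j.map Jsp.v ∧
    Op.tw (LocFam.Auto.twist (b.isCubic h) (b.X h).pres)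
      (Ctx.ME (b.sF h j' : (b.v0Data h).pureS).1).toDKer =
      (Ctx.ME (b.sF h j : (b.v0Data h).pureS).1).toDKer := by
  cases j with
  | none => exact absurd rfl hj
  | some j => exact ⟨some j.next, by simp, rfl, b.tw_ME_sJ h j⟩

end Fermat.Agent.LT.Mp
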