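import Fermat.Agent.LT.Mp.Ctx
import Fermat.Agent.LT.Glob.Ker

/-!
# The global Hecke functions of a symbol
-/

set_option autoImplicit false

universe w u u' i'

namespace Fermat.Agent.LT.Mp

open Matrix Filter Fermat.Agent.LT.Loc Fermat.Agent.LT.Glob
open scoped MatrixGroups

variable {k : Type u} {E : Type u'} [Field k] [Field E] [Algebra k E] {ι : Type i'}
  {X : Ctx.{w} k E ι}

/-- a commutative subring of the Hecke algebra gives a `ConvSet` -/
def ConvSet.ofSet {H : Type u} [Group H] {K : Subgroup H} (S : Set (Hk K)) (h1 : 1 ∈ S)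
    (hm : ∀ a ∈ S, ∀ b ∈ S, a * b ∈ S) (hc : ∀ a ∈ S, ∀ b ∈ S, a * b = b * a) : ConvSet K where
  carrier := {F | ∃ a ∈ S, a.toBiInv = F}
  unit_mem := ⟨1, h1, Hk.toBiInv_one⟩
  conv_mem := by
    rintro _ ⟨a, ha, rfl⟩ _ ⟨b, hb, rfl⟩
    exact ⟨a * b, hm a ha b hb, Hk.toBiInv_mul a b⟩
  comm := by
    rintro _ ⟨a, ha, rfl⟩ _ ⟨b, hb, rfl⟩
    rw [← Hk.toBiInv_mul, ← Hk.toBiInv_mul, hc a ha b hb]
  fin := by
    rintro _ ⟨a, ha, rfl⟩
    exact a.fin'

theorem ConvSet.mem_ofSet {H : Type u} [Group H] {K : Subgroup H} {S : Set (Hk K)} {h1 : 1 ∈ S}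
    {hm : ∀ a ∈ S, ∀ b ∈ S, a * b ∈ S} {hc : ∀ a ∈ S, ∀ b ∈ S, a * b = b * a} {a : Hk K}
    (ha : a ∈ S) : a.toBiInv ∈ (ConvSet.ofSet S h1 hm hc).carrier := ⟨a, ha, rfl⟩

/-- a commutative subalgebra of the Hecke algebra gives a `ConvSet` -/
def ConvSet.ofAlg {H : Type u} [Group H] {K : Subgroup H} (S : Subalgebra ℂ (Hk K))
    (hc : ∀ a ∈ S, ∀ b ∈ S, a * b = b * a) : ConvSet K :=
  ConvSet.ofSet (S : Set (Hk K)) S.one_mem (fun _ ha _ hb => S.mul_mem ha hb) hc

namespace Ctx

/-- the multiplier on the `E`-side -/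
noncomputable def ME (G : X.Sym) : LocFam.GFun X.UE := .ofBi (mE G) (mE_fin G) (mE_unit G)

/-- the multiplier on the `k`-side -/
noncomputable def MK (G : X.Sym) : LocFam.GFun X.Uk := .ofBi (mK G) (mK_fin G) (mK_unit G)

/-- the matched function on the `E`-side -/
noncomputable def PE (G : X.Sym) : LocFam.GFun X.UE := .ofBi (pE G) (pE_fin G) (pE_unit G)

/-- the matched function on the `k`-side -/
noncomputable def PK (G : X.Sym) : LocFam.GFun X.Uk := .ofBi (pK G) (pK_fin G) (pK_unit G)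

@[simp] theorem ME_f (G : X.Sym) (v : ι) : (ME G).f v = mE G v := rfl
@[simp] theorem MK_f (G : X.Sym) (v : ι) : (MK G).f v = mK G v := rfl
@[simp] theorem PE_f (G : X.Sym) (v : ι) : (PE G).f v = pE G v := rfl
@[simp] theorem PK_f (G : X.Sym) (v : ι) : (PK G).f v = pK G v := rfl

theorem ME_mul (G G' : X.Sym) : ME (G * G') = ME G * ME G' :=
  LocFam.GFun.ext_f fun v => by rw [LocFam.GFun.f_mul]; exact mE_mul G G' v

theorem MK_mul (G G' : X.Sym) : MK (G * G') = MK G * MK G' :=
  LocFam.GFun.ext_f fun v => by rw [LocFam.GFun.f_mul]; exact mK_mul G G' v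

theorem PE_mul (G G' : X.Sym) : PE (G * G') = ME G * PE G' :=
  LocFam.GFun.ext_f fun v => by rw [LocFam.GFun.f_mul]; exact pE_mul G G' v

theorem PK_mul (G G' : X.Sym) : PK (G * G') = MK G * PK G' :=
  LocFam.GFun.ext_f fun v => by rw [LocFam.GFun.f_mul]; exact pK_mul G G' v

theorem PE_mul' (G G' : X.Sym) : PE (G * G') = PE G * ME G' :=
  LocFam.GFun.ext_f fun v => by rw [LocFam.GFun.f_mul]; exact pE_mul' G G' v

theorem PK_mul' (G G' : X.Sym) : PK (G * G') = PK G * MK G' :=
  LocFam.GFun.ext_f fun v => by rw [LocFam.GFun.f_mul]; exact pK_mul' G G' v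

theorem ME_one : ME (1 : X.Sym) = 1 :=
  LocFam.GFun.ext_f fun v => by rw [LocFam.GFun.f_one]; exact mE_one v

theorem MK_one : MK (1 : X.Sym) = 1 :=
  LocFam.GFun.ext_f fun v => by rw [LocFam.GFun.f_one]; exact mK_one v

/-- the multipliers commute -/
theorem ME_comm (G G' : X.Sym) : Commute (ME G) (ME G') := by
  rw [Commute, SemiconjBy, ← ME_mul, ← ME_mul, mul_comm]

theorem MK_comm (G G' : X.Sym) : Commute (MK G) (MK G') := by
  rw [Commute, SemiconjBy, ← MK_mul, ← MK_mul, mul_comm]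

theorem ME_comm_PE (G G' : X.Sym) : Commute (ME G) (PE G') := by
  rw [Commute, SemiconjBy, ← PE_mul, ← PE_mul', mul_comm]

theorem MK_comm_PK (G G' : X.Sym) : Commute (MK G) (PK G') := by
  rw [Commute, SemiconjBy, ← PK_mul, ← PK_mul', mul_comm]

section Single

open Classical in
/-- the symbol with one nontrivial component -/
noncomputable def single (v : ι) (hv : v ∈ X.spl) (j : Fin 3) (F : BiInv (X.Uk.U v))
    (hF : F ∈ (X.alg v).carrier) : X.Sym where
  G v' j' := if h : v' = v then (if j' = j then h ▸ F else BiInv.unit _) else BiInv.unit _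
  mem v' j' := by
    by_cases h : v' = v
    · subst h
      rw [dif_pos rfl]
      split_ifs
      · exact hF
      · exact (X.alg v').unit_mem
    · rw [dif_neg h]
      exact (X.alg v').unit_mem
  off v' hv' j' := by
    rw [dif_neg]
    rintro rfl
    exact hv' hv
  unit := by
    filter_upwards [(Set.finite_singleton v).compl_mem_cofinite] with v' h j'
    exact dif_neg h

open Classical in
theorem single_G_self (v : ι) (hv : v ∈ X.spl) (j : Fin 3) (F : BiInv (X.Uk.U v))
    (hF : F ∈ (X.alg v).carrier) : (single v hv j F hF).G v j = F := by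
  change (if h : v = v then (if j = j then h ▸ F else BiInv.unit _) else BiInv.unit _) = F
  rw [dif_pos rfl, if_pos rfl]

open Classical in
theorem single_G_ne (v : ι) (hv : v ∈ X.spl) {j j' : Fin 3} (F : BiInv (X.Uk.U v))
    (hF : F ∈ (X.alg v).carrier) (h : j' ≠ j) :
    (single v hv j F hF).G v j' = BiInv.unit _ := by
  change (if h : v = v then (if j' = j then h ▸ F else BiInv.unit _) else BiInv.unit _) = _
  rw [dif_pos rfl, if_neg h]

open Classical in
theorem single_G_off {v v' : ι} (hv : v ∈ X.spl) (j j' : Fin 3) (F : BiInv (X.Uk.U v))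
    (hF : F ∈ (X.alg v).carrier) (h : v' ≠ v) :
    (single v hv j F hF).G v' j' = BiInv.unit _ := by
  change (if h : v' = v then (if j' = j then h ▸ F else BiInv.unit _) else BiInv.unit _) = _
  rw [dif_neg h]

/-- on the `k`-side all three indices give the same function -/
theorem MK_single (v : ι) (hv : v ∈ X.spl) (j : Fin 3) (F : Hk (X.Uk.U v))
    (hF : F.toBiInv ∈ (X.alg v).carrier) :
    MK (single v hv j F.toBiInv hF) = LocFam.GFun.single v F := by
  refine LocFam.GFun.ext_f fun v' => ?_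
  rw [MK_f]
  by_cases h : v' = v
  · subst h
    rw [mK_of_mem _ hv, gk, LocFam.GFun.f, LocFam.GFun.single_self]
    fin_cases j
    · simp only [Fin.zero_eta, Fin.isValue]
      rw [single_G_self, single_G_ne _ _ _ _ (by decide), single_G_ne _ _ _ _ (by decide),
        BiInv.unit_conv, BiInv.conv_unit]
    · simp only [Fin.mk_one, Fin.isValue]
      rw [single_G_self, single_G_ne _ _ _ _ (by decide), single_G_ne _ _ _ _ (by decide),
        BiInv.unit_conv, BiInv.conv_unit]
    · simp only [Fin.reduceFinMk, Fin.isValue]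
      rw [single_G_self, single_G_ne _ _ _ _ (by decide), single_G_ne _ _ _ _ (by decide),
        BiInv.unit_conv, BiInv.unit_conv]
  · rw [LocFam.GFun.f, LocFam.GFun.single_of_ne h, Hk.toBiInv_one]
    by_cases h' : v' ∈ X.spl
    · rw [mK_of_mem _ h', gk_of_unit fun j' => single_G_off hv j j' _ hF h]
    · rw [mK_of_not_mem _ h']

/-- the local factor of a symbol with one nontrivial component on the `E`-side -/
noncomputable def tj (v : ι) (hv : v ∈ X.spl) (j : Fin 3) (F : BiInv (X.Uk.U v)) :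
    BiInv (X.UE.U v) :=
  tens3 (X.prod v hv) (if (0 : Fin 3) = j then F else BiInv.unit _)
    (if (1 : Fin 3) = j then F else BiInv.unit _) (if (2 : Fin 3) = j then F else BiInv.unit _)

theorem tj_fin (v : ι) (hv : v ∈ X.spl) (j : Fin 3) (F : BiInv (X.Uk.U v)) (hF : F.Fin) :
    (tj v hv j F).Fin := by
  refine tens3_fin (X.split v hv).pgl_split3 (X.prod v hv) ?_ ?_ ?_
  all_goals
    split_ifs
    · exact hF
    · exact BiInv.unit_fin

theorem ME_single (v : ι) (hv : v ∈ X.spl) (j : Fin 3) (F : BiInv (X.Uk.U v))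
    (hF : F ∈ (X.alg v).carrier) :
    ME (single v hv j F hF) = LocFam.GFun.single v
      (Hk.ofBi (tj v hv j F) (tj_fin v hv j F ((X.alg v).fin F hF))) := by
  refine LocFam.GFun.ext_f fun v' => ?_
  rw [ME_f]
  by_cases h : v' = v
  · subst h
    rw [mE_of_mem _ hv, gE, LocFam.GFun.f, LocFam.GFun.single_self]
    change _ = tj v' hv j F
    have key : ∀ j' : Fin 3, (single v' hv j F hF).G v' j' =
        if j' = j then F else BiInv.unit _ := by
      intro j'
      split_ifs with hj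
      · subst hj
        exact single_G_self v' hv j' F hF
      · exact single_G_ne v' hv F hF hj
    rw [key, key, key, tj]
  · rw [LocFam.GFun.f, LocFam.GFun.single_of_ne h, Hk.toBiInv_one]
    by_cases h' : v' ∈ X.spl
    · rw [mE_of_mem _ h', gE_of_unit h' fun j' => single_G_off hv j j' _ hF h]
    · rw [mE_of_not_mem _ h']

end Single

section Twist

/-- the twisted kernel of the matched function -/
theorem PE_ker_twist (G : X.Sym) (x : GL (Fin 2) E) (y : LocFam.D X.UE) :
    (PE G).ker y (x • LocFam.Auto.dmap X.pres y) =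
      ∏ᶠ v, (pE G v).tw (X.A.g v) (X.pres v) (X.LE.emb v x) (y v) :=
  LocFam.GFun.ker_twist (PE G) X.pres x y

/-- the kernel of the matched function -/
theorem PK_ker_smul (G : X.Sym) (γ : GL (Fin 2) k) (y : LocFam.D X.Uk) :
    (PK G).ker y (γ • y) =
      ∏ᶠ v, (pK G v).tw (MonoidHom.id _) (fun _ h => h) (X.Lk.emb v γ) (y v) :=
  LocFam.GFun.ker_smul_right (PK G) γ y

/-- **the global correspondence**, in terms of the kernels -/
theorem exists_corr_ker (G : X.Sym) {T : Type u} [Group T] (j : T →* GL (Fin 2) k)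
    (γ : GL (Fin 2) k) (x : GL (Fin 2) E)
    (hd : (γ : Matrix (Fin 2) (Fin 2) k).trace ^ 2 - 4 * (γ : Matrix (Fin 2) (Fin 2) k).det ≠ 0)
    (hX : x * GeneralLinearGroup.map (X.A.θ : E →+* E) x *
      GeneralLinearGroup.map (X.A.θ : E →+* E) (GeneralLinearGroup.map (X.A.θ : E →+* E) x) =
      bcE (E := E) γ)
    (hT : ∀ t, j t * γ = γ * j t) :
    ∃ C : @LocalCorr.{max i' w} T _ (LocFam.D X.UE) (LocFam.D X.Uk)
      (MulAction.compHom (LocFam.D X.UE) ((bcE (E := E)).comp j))
      (MulAction.compHom (LocFam.D X.Uk) j)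
      (fun y => (PE G).ker y (x • LocFam.Auto.dmap X.pres y)) (fun y => (PK G).ker y (γ • y)),
      @LocalCorr.NC T _ _ _ (MulAction.compHom (LocFam.D X.UE) ((bcE (E := E)).comp j))
        (MulAction.compHom (LocFam.D X.Uk) j) _ _ C := by
  have e1 : (fun y : LocFam.D X.UE => (PE G).ker y (x • LocFam.Auto.dmap X.pres y)) =
      fun y => ∏ᶠ v, (pE G v).tw (X.A.g v) (X.pres v) (X.LE.emb v x) (y v) :=
    funext (PE_ker_twist G x)
  have e2 : (fun y : LocFam.D X.Uk => (PK G).ker y (γ • y)) =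
      fun y => ∏ᶠ v, (pK G v).tw (MonoidHom.id _) (fun _ h => h) (X.Lk.emb v γ) (y v) :=
    funext (PK_ker_smul G γ)
  rw [e1, e2]
  exact exists_corr G j γ x hd hX hT

end Twist

end Ctx

end Fermat.Agent.LT.Mp
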