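import Fermat.Agent.LT.Mp.HkAlg
import Fermat.Agent.LT.Mp.Gf
import Fermat.Agent.LT.V0.IwAlg

set_option autoImplicit false

/-!
# The place `v₀`: the algebra generated by `U` and `Z`, and the supports of the symbols
-/

namespace Fermat.Agent.LT.Mp

open Matrix Filter Fermat.Agent.LT.Loc Fermat.Agent.LT.Glob Fermat.Agent.LT.V0
open scoped MatrixGroups

universe w u u' i'

/-! ### the degree -/

section Deg

variable {A : Type*} [Ring A] [Algebra ℂ A] {U Z : A} {q : ℂ}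

/-- the span of the powers of `U` with exponent at least `M` -/
def powGe (U : A) (M : ℕ) : Submodule ℂ A := Submodule.span ℂ {x | ∃ i, M ≤ i ∧ x = U ^ i}

theorem pow_mem_powGe {M i : ℕ} (h : M ≤ i) : U ^ i ∈ powGe U M :=
  Submodule.subset_span ⟨i, h, rfl⟩

theorem powGe_anti {M N : ℕ} (h : M ≤ N) : powGe U N ≤ powGe U M := by
  refine Submodule.span_mono ?_
  rintro x ⟨i, hi, rfl⟩
  exact ⟨i, h.trans hi, rfl⟩

theorem mul_mem_powGe_of {F : A} {M N : ℕ} (h : ∀ i, M ≤ i → F * U ^ i ∈ powGe U N) {x : A}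
    (hx : x ∈ powGe U M) : F * x ∈ powGe U N := by
  induction hx using Submodule.span_induction with
  | mem x hx =>
    obtain ⟨i, hi, rfl⟩ := hx
    exact h i hi
  | zero => rw [mul_zero]; exact zero_mem _
  | add x y _ _ hx hy => rw [mul_add]; exact add_mem hx hy
  | smul c x _ hx => rw [mul_smul_comm]; exact Submodule.smul_mem _ _ hx

/-- multiplication by a polynomial in `U`, `Z` lowers the exponent by at most a constant -/
theorem exists_deg (hZ : ∀ m, Z * U ^ (m + 1) = U ^ (m + 2) + q • U ^ m) {F : A}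
    (hF : F ∈ Algebra.adjoin ℂ ({U, Z} : Set A)) :
    ∃ c : ℕ, ∀ M, ∀ x ∈ powGe U (M + c), F * x ∈ powGe U M := by
  induction hF using Algebra.adjoin_induction with
  | mem x hx =>
    rcases hx with rfl | hx
    · refine ⟨0, fun M y hy => mul_mem_powGe_of (fun i hi => ?_) hy⟩
      rw [← pow_succ']
      exact pow_mem_powGe (by omega)
    · rw [Set.mem_singleton_iff] at hx
      subst hx
      refine ⟨1, fun M y hy => mul_mem_powGe_of (fun i hi => ?_) hy⟩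
      obtain ⟨i, rfl⟩ : ∃ i', i = i' + 1 := ⟨i - 1, by omega⟩
      rw [hZ]
      exact add_mem (pow_mem_powGe (by omega)) (Submodule.smul_mem _ _ (pow_mem_powGe (by omega)))
  | algebraMap r =>
    refine ⟨0, fun M y hy => ?_⟩
    rw [Algebra.algebraMap_eq_smul_one, smul_mul_assoc, one_mul]
    exact Submodule.smul_mem _ _ hy
  | add F G _ _ hF hG =>
    obtain ⟨c, hc⟩ := hF
    obtain ⟨d, hd⟩ := hG
    refine ⟨max c d, fun M y hy => ?_⟩
    rw [add_mul]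
    exact add_mem (hc M y (powGe_anti (by omega) hy)) (hd M y (powGe_anti (by omega) hy))
  | mul F G _ _ hF hG =>
    obtain ⟨c, hc⟩ := hF
    obtain ⟨d, hd⟩ := hG
    refine ⟨c + d, fun M y hy => ?_⟩
    rw [mul_assoc]
    exact hc M _ (hd (M + c) y (by rwa [add_assoc]))

theorem adjoin_pair_comm (hUZ : Commute Z U) :
    ∀ a ∈ Algebra.adjoin ℂ ({U, Z} : Set A), ∀ b ∈ Algebra.adjoin ℂ ({U, Z} : Set A),
      a * b = b * a := by
  intro a ha b hb
  have h1 : ∀ x ∈ ({U, Z} : Set A), ∀ y ∈ ({U, Z} : Set A), Commute x y := by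
    rintro x (rfl | rfl) y (rfl | rfl)
    · exact Commute.refl _
    · exact hUZ.symm
    · exact hUZ
    · exact Commute.refl _
  have h2 : ∀ x ∈ ({U, Z} : Set A), Commute x b := fun x hx =>
    Algebra.commute_of_mem_adjoin_of_forall_mem_commute hb (h1 x hx)
  exact (Algebra.commute_of_mem_adjoin_of_forall_mem_commute ha fun x hx => (h2 x hx).symm).symm

end Deg

/-! ### the Iwahori–Hecke algebra -/

section Iw

variable {R : Type u} [CommRing R] {O : Subring R} {ϖ : Rˣ} {B : Finset R} (h : Unif O ϖ B)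
  {K : Subgroup PGL(2, R)} (hK : K = Iw O ϖ)

/-- transport of an element of the Iwahori–Hecke algebra -/
noncomputable def kX (hK : K = Iw O ϖ) (F : HAlg (Iw O ϖ)) : Hk K := hK ▸ toHk F

theorem kX_rfl (F : HAlg (Iw O ϖ)) : kX rfl F = toHk F := rfl

theorem kX_f (F : HAlg (Iw O ϖ)) (g : PGL(2, R)) : (kX hK F).f g = F.bi.f g := by
  subst hK; rfl

theorem kX_mul (F G : HAlg (Iw O ϖ)) : kX hK (F * G) = kX hK F * kX hK G := by
  subst hK; exact map_mul _ _ _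

theorem kX_add (F G : HAlg (Iw O ϖ)) : kX hK (F + G) = kX hK F + kX hK G := by
  subst hK; exact map_add _ _ _

theorem kX_sub (F G : HAlg (Iw O ϖ)) : kX hK (F - G) = kX hK F - kX hK G := by
  subst hK; exact map_sub _ _ _

theorem kX_smul (c : ℂ) (F : HAlg (Iw O ϖ)) : kX hK (c • F) = c • kX hK F := by
  subst hK; exact map_smul _ _ _

theorem kX_one : kX hK (1 : HAlg (Iw O ϖ)) = 1 := by
  subst hK; exact map_one _

theorem kX_pow (F : HAlg (Iw O ϖ)) (m : ℕ) : kX hK (F ^ m) = kX hK F ^ m := by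
  subst hK; exact map_pow _ _ _

/-- `U` -/
noncomputable def kU : Hk K := kX hK (iwU h)

/-- `Z` -/
noncomputable def kZ : Hk K := kX hK (iwZ h)

/-- `e` -/
noncomputable def kE : Hk K := kX hK (iwE h)

/-- `ω` -/
noncomputable def kW : Hk K := kX hK (iwW h)

theorem kZ_mul_pow (m : ℕ) :
    kZ h hK * kU h hK ^ (m + 1) = kU h hK ^ (m + 2) + (B.card : ℂ) • kU h hK ^ m := by
  rw [kZ, kU, ← kX_pow, ← kX_pow, ← kX_pow, ← kX_mul, ← kX_smul, ← kX_add, iwZ_mul_pow]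

theorem kZ_comm_kU : Commute (kZ h hK) (kU h hK) := by
  rw [Commute, SemiconjBy, kZ, kU, ← kX_mul, ← kX_mul, (iwZ_comm_U h).eq]

theorem kZ_comm_kE : Commute (kZ h hK) (kE h hK) := by
  rw [Commute, SemiconjBy, kZ, kE, ← kX_mul, ← kX_mul, (iwZ_comm_E h).eq]

theorem kZ_comm_kW : Commute (kZ h hK) (kW h hK) := by
  rw [Commute, SemiconjBy, kZ, kW, ← kX_mul, ← kX_mul, (iwZ_comm_W h).eq]

/-- **the commutative algebra generated by `U` and `Z`** -/
noncomputable def algUZ : Subalgebra ℂ (Hk K) := Algebra.adjoin ℂ {kU h hK, kZ h hK}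

theorem kU_mem : kU h hK ∈ algUZ h hK := Algebra.subset_adjoin (Or.inl rfl)

theorem kZ_mem : kZ h hK ∈ algUZ h hK := Algebra.subset_adjoin (Or.inr rfl)

theorem algUZ_comm : ∀ a ∈ algUZ h hK, ∀ b ∈ algUZ h hK, a * b = b * a :=
  adjoin_pair_comm (kZ_comm_kU h hK)

/-- the support of a combination of powers of `U` -/
theorem supp_powGe {M : ℕ} (hM : 0 < M) {x : Hk K} (hx : x ∈ powGe (kU h hK) M) {g : PGL(2, R)}
    (hg : x.f g ≠ 0) : ∃ i, M ≤ i ∧ g ∈ SU O ϖ i := by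
  induction hx using Submodule.span_induction with
  | mem x hx =>
    obtain ⟨i, hi, rfl⟩ := hx
    obtain ⟨i, rfl⟩ : ∃ i', i = i' + 1 := ⟨i - 1, by omega⟩
    rw [kU, ← kX_pow, kX_f] at hg
    exact ⟨i + 1, hi, iwU_pow_supp h i hg⟩
  | zero => exact absurd (Hk.zero_f g) hg
  | add x y _ _ hx hy =>
    by_cases h4 : x.f g = 0
    · refine hy fun h5 => hg ?_
      rw [Hk.add_f, h4, h5, add_zero]
    · exact hx h4
  | smul c x _ hx =>
    refine hx fun h4 => hg ?_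
    rw [Hk.csmul_f, h4, mul_zero]

/-- **the support of `F * U ^ m`** -/
theorem algUZ_supp {F : Hk K} (hF : F ∈ algUZ h hK) :
    ∃ c : ℕ, ∀ m, c < m → ∀ g, (F * kU h hK ^ m).f g ≠ 0 → ∃ i, m ≤ i + c ∧ g ∈ SU O ϖ i := by
  obtain ⟨c, hc⟩ := exists_deg (kZ_mul_pow h hK) hF
  refine ⟨c, fun m hm g hg => ?_⟩
  have h1 := hc (m - c) (kU h hK ^ m) (pow_mem_powGe (by omega))
  obtain ⟨i, hi, hi'⟩ := supp_powGe h hK (by omega) h1 hg
  exact ⟨i, by omega, hi'⟩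

end Iw

/-! ### symbols at `v₀` -/

namespace Ctx

variable {k : Type u} {E : Type u'} [Field k] [Field E] [Algebra k E] {ι : Type i'}
  {X : Ctx.{w} k E ι}

/-- the data at the place `v₀` -/
structure V0Data (X : Ctx.{w} k E ι) where
  v : ι
  hv : v ∈ X.spl
  ϖ : (X.Lk.R v)ˣ
  B : Finset (X.Lk.R v)
  unif : Unif (X.Lk.O v) ϖ B
  iw : X.Uk.U v = Iw (X.Lk.O v) ϖ
  alg_sub : ∀ F ∈ (X.alg v).carrier, ∃ a ∈ algUZ unif iw, a.toBiInv = F
  alg_sup : ∀ a ∈ algUZ unif iw, a.toBiInv ∈ (X.alg v).carrier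

namespace V0Data

variable (d : V0Data X)

/-- `U` at the place `v₀` -/
noncomputable def U : Hk (X.Uk.U d.v) := kU d.unif d.iw

/-- `Z` at the place `v₀` -/
noncomputable def Z : Hk (X.Uk.U d.v) := kZ d.unif d.iw

theorem U_pow_mem (m : ℕ) : (d.U ^ m).toBiInv ∈ (X.alg d.v).carrier :=
  d.alg_sup _ (Subalgebra.pow_mem _ (kU_mem _ _) m)

theorem Z_mem : d.Z.toBiInv ∈ (X.alg d.v).carrier := d.alg_sup _ (kZ_mem _ _)

/-- the symbol `U ^ m` in the first variable at `v₀` -/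
noncomputable def u (m : ℕ) : X.Sym := single d.v d.hv 0 (d.U ^ m).toBiInv (d.U_pow_mem m)

/-- the symbol `Z` in the first variable at `v₀` -/
noncomputable def z : X.Sym := single d.v d.hv 0 d.Z.toBiInv d.Z_mem

theorem MK_u (m : ℕ) : MK (d.u m) = LocFam.GFun.single d.v (d.U ^ m) := MK_single _ _ _ _ _

theorem MK_z : MK d.z = LocFam.GFun.single d.v d.Z := MK_single _ _ _ _ _

/-- nothing happens in the second and the third variable at `v₀` -/
structure Pure (G : X.Sym) : Prop where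
  one : G.G d.v 1 = BiInv.unit _
  two : G.G d.v 2 = BiInv.unit _

theorem pure_one : d.Pure 1 := ⟨rfl, rfl⟩

variable {d} in
theorem Pure.mul {G G' : X.Sym} (hG : d.Pure G) (hG' : d.Pure G') : d.Pure (G * G') :=
  ⟨by rw [Sym.mul_G, hG.one, hG'.one, BiInv.unit_conv],
    by rw [Sym.mul_G, hG.two, hG'.two, BiInv.unit_conv]⟩

theorem pure_u (m : ℕ) : d.Pure (d.u m) :=
  ⟨single_G_ne _ _ _ _ (by decide), single_G_ne _ _ _ _ (by decide)⟩

theorem pure_z : d.Pure d.z :=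
  ⟨single_G_ne _ _ _ _ (by decide), single_G_ne _ _ _ _ (by decide)⟩

theorem pure_single {v : ι} (hv : v ∈ X.spl) (j : Fin 3) (F : BiInv (X.Uk.U v))
    (hF : F ∈ (X.alg v).carrier) (h : v ≠ d.v) : d.Pure (single v hv j F hF) :=
  ⟨single_G_off _ _ _ _ _ h.symm, single_G_off _ _ _ _ _ h.symm⟩

theorem u_zero : d.u 0 = 1 := by
  apply Sym.ext
  funext v j
  rw [Sym.one_G]
  by_cases h : v = d.v
  · subst h
    by_cases hj : j = 0
    · subst hj
      rw [u, single_G_self, pow_zero, Hk.toBiInv_one]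
    · exact single_G_ne _ _ _ _ hj
  · exact single_G_off _ _ _ _ _ h

theorem u_G_self (m : ℕ) : (d.u m).G d.v 0 = (d.U ^ m).toBiInv := single_G_self _ _ _ _ _

theorem u_G_ne (m : ℕ) {j : Fin 3} (hj : j ≠ 0) : (d.u m).G d.v j = BiInv.unit _ :=
  single_G_ne _ _ _ _ hj

theorem u_G_off (m : ℕ) {v : ι} (hv : v ≠ d.v) (j : Fin 3) : (d.u m).G v j = BiInv.unit _ :=
  single_G_off _ _ _ _ _ hv

theorem mul_u_G_self (G : X.Sym) (m : ℕ) :
    (G * d.u m).G d.v 0 = (G.G d.v 0).conv (d.U ^ m).toBiInv := by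
  rw [Sym.mul_G, u_G_self]

theorem mul_u_G_ne (G : X.Sym) (m : ℕ) {j : Fin 3} (hj : j ≠ 0) :
    (G * d.u m).G d.v j = G.G d.v j := by
  rw [Sym.mul_G, u_G_ne d m hj, BiInv.conv_unit]

theorem mul_u_G_off (G : X.Sym) (m : ℕ) {v : ι} (hv : v ≠ d.v) (j : Fin 3) :
    (G * d.u m).G v j = G.G v j := by
  rw [Sym.mul_G, u_G_off d m hv, BiInv.conv_unit]

theorem gk_mul_u_off (G : X.Sym) (m : ℕ) {v : ι} (hv : v ≠ d.v) : gk (G * d.u m) v = gk G v := by
  rw [gk, gk, mul_u_G_off d G m hv, mul_u_G_off d G m hv, mul_u_G_off d G m hv]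

theorem gE_mul_u_off (G : X.Sym) (m : ℕ) {v : ι} (hv : v ≠ d.v) (hv' : v ∈ X.spl) :
    gE (G * d.u m) v hv' = gE G v hv' := by
  rw [gE, gE, mul_u_G_off d G m hv, mul_u_G_off d G m hv, mul_u_G_off d G m hv]

/-- away from `v₀` nothing changes -/
theorem pK_mul_u_off (G : X.Sym) (m : ℕ) {v : ι} (hv : v ≠ d.v) : pK (G * d.u m) v = pK G v := by
  by_cases h : v ∈ X.spl
  · rw [pK_of_mem _ h, pK_of_mem _ h, gk_mul_u_off d G m hv]
  · rw [pK_of_not_mem _ h, pK_of_not_mem _ h]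

theorem pE_mul_u_off (G : X.Sym) (m : ℕ) {v : ι} (hv : v ≠ d.v) : pE (G * d.u m) v = pE G v := by
  by_cases h : v ∈ X.spl
  · rw [pE_of_mem _ h, pE_of_mem _ h, gE_mul_u_off d G m hv]
  · rw [pE_of_not_mem _ h, pE_of_not_mem _ h]

/-- **The support at `v₀` on the `k`-side.** -/
theorem pK_supp (G : X.Sym) : ∃ c : ℕ, ∀ m, c < m → ∀ g,
    (pK (G * d.u m) d.v).f g ≠ 0 → ∃ i, m ≤ i + c ∧ g ∈ SU (X.Lk.O d.v) d.ϖ i := by
  obtain ⟨a0, ha0, e0⟩ := d.alg_sub _ (G.mem d.v 0)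
  obtain ⟨a1, ha1, e1⟩ := d.alg_sub _ (G.mem d.v 1)
  obtain ⟨a2, ha2, e2⟩ := d.alg_sub _ (G.mem d.v 2)
  obtain ⟨c, hc⟩ := algUZ_supp d.unif d.iw (Subalgebra.mul_mem _ ha0 (Subalgebra.mul_mem _ ha1 ha2))
  refine ⟨c, fun m hm g hg => hc m hm g ?_⟩
  have e : pK (G * d.u m) d.v = (a0 * (a1 * a2) * kU d.unif d.iw ^ m).toBiInv := by
    have hcomm : a0 * (a1 * a2) * kU d.unif d.iw ^ m =
        a0 * kU d.unif d.iw ^ m * (a1 * a2) := by
      rw [mul_assoc a0 (a1 * a2), algUZ_comm d.unif d.iw _ (Subalgebra.mul_mem _ ha1 ha2) _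
        (Subalgebra.pow_mem _ (kU_mem _ _) m), ← mul_assoc a0]
    rw [pK_of_mem _ d.hv, gk, mul_u_G_self, mul_u_G_ne d G m (by decide),
      mul_u_G_ne d G m (by decide), hcomm, Hk.toBiInv_mul, Hk.toBiInv_mul, Hk.toBiInv_mul, e0, e1,
      e2]
    rfl
  rw [e] at hg
  exact hg

/-- **The support at `v₀` on the `E`-side.** -/
theorem pE_supp {G : X.Sym} (hG : d.Pure G) : ∃ c : ℕ, ∀ m, c < m → ∀ g, (pE (G * d.u m) d.v).f g ≠ 0 →
      (∃ i, m ≤ i + c ∧ ProjGenLinGroup.map (X.π d.v d.hv) g ∈ SU (X.Lk.O d.v) d.ϖ i) ∧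
      ProjGenLinGroup.map (X.π d.v d.hv) (X.A.g d.v g) ∈ Iw (X.Lk.O d.v) d.ϖ ∧
      ProjGenLinGroup.map (X.π d.v d.hv) (X.A.g d.v (X.A.g d.v g)) ∈ Iw (X.Lk.O d.v) d.ϖ := by
  obtain ⟨a0, ha0, e0⟩ := d.alg_sub _ (G.mem d.v 0)
  obtain ⟨c, hc⟩ := algUZ_supp d.unif d.iw ha0
  refine ⟨c, fun m hm g hg => ?_⟩
  have e : pE (G * d.u m) d.v = tens3 (X.prod d.v d.hv) ((a0 * kU d.unif d.iw ^ m).toBiInv)
      (BiInv.unit _) (BiInv.unit _) := by
    rw [pE_of_mem _ d.hv, gE, mul_u_G_self, mul_u_G_ne d G m (by decide),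
      mul_u_G_ne d G m (by decide), hG.one, hG.two, Hk.toBiInv_mul, e0]
    rfl
  rw [e, tens3_f] at hg
  refine ⟨hc m hm _ (left_ne_zero_of_mul (left_ne_zero_of_mul hg)), ?_, ?_⟩
  · rw [← d.iw]
    exact BiInv.mem_of_unit_ne (right_ne_zero_of_mul (left_ne_zero_of_mul hg))
  · rw [← d.iw]
    exact BiInv.mem_of_unit_ne (right_ne_zero_of_mul hg)

end V0Data

end Ctx

end Fermat.Agent.LT.Mp
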