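import Fermat.Agent.LT.Mp.Inst
import Fermat.Agent.LT.Mp.V0Supp
import Fermat.Agent.LT.Glob.FibSplit
import Fermat.Agent.LT.Glob.KillKE

/-!
# The Hecke symbols of the concrete context
-/

set_option autoImplicit false
set_option linter.unusedVariables false

universe w u u' i'

namespace Fermat.Agent.LT.Mp

open Matrix Filter Fermat.Agent.LT.Loc Fermat.Agent.LT.Glob NumberField
  IsDedekindDomain WithZero
open scoped MatrixGroups

variable {k E : Type u} [Field k] [NumberField k] [Field E] [NumberField E] [Algebra k E]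
  {σ : E ≃ₐ[k] E} (h : Gal3 σ) (b : Bad σ) {v : HeightOneSpectrum (𝓞 k)}
include h

omit h in
theorem HS_eq_of_val {ϖ ϖ' : (v.adicCompletion k)ˣ}
    (h1 : Valued.v (ϖ : v.adicCompletion k) = exp (-1 : ℤ))
    (h2 : Valued.v (ϖ' : v.adicCompletion k) = exp (-1 : ℤ)) :
    HS (Oc v) ϖ = HS (Oc v) ϖ' := by
  refine HS_congr ?_
  rw [mem_OU_Oc, Units.val_mul, map_mul, h1, Units.val_inv_eq_inv_val, map_inv₀, h2,
    mul_inv_cancel₀ exp_ne_zero]

/-- **the symbol `T_j`** at a good split place -/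
noncomputable def Bad.sT (hb : v ∉ b.bad) (h0 : v ≠ b.v0) (hs : IsSpl σ v) (j : Fin 3) :
    (b.X h).Sym :=
  Ctx.single v (b.mem_spl h hb h0 hs) j
    (LocFam.TTb (L := (b.X h).Lk) (U := (b.X h).Uk) (unif v) (b.Uk_good h hb h0))
    (b.TTb_mem h hb h0 hs)

variable {ϖ : (v.adicCompletion k)ˣ} {B : Finset (v.adicCompletion k)}

/-- **the Hecke operator on the `k`-side** -/
theorem Bad.MK_sT (hb : v ∉ b.bad) (h0 : v ≠ b.v0) (hs : IsSpl σ v) (j : Fin 3)
    (hu : Unif (Oc v) ϖ B) (hϖ : Valued.v (ϖ : v.adicCompletion k) = exp (-1 : ℤ)) :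
    Ctx.MK (b.sT h hb h0 hs j) = LocFam.GFun.single v
      (LocFam.TTh (L := locK (F := k)) (U := (b.X h).Uk) hu (b.Uk_good h hb h0)) := by
  have e : (LocFam.TTb (L := (b.X h).Lk) (U := (b.X h).Uk) (unif v) (b.Uk_good h hb h0)) =
      (LocFam.TTh (L := locK (F := k)) (U := (b.X h).Uk) hu (b.Uk_good h hb h0)).toBiInv := by
    classical
    refine BiInv.ext' fun g => ?_
    change (LocFam.TTb (L := (b.X h).Lk) (U := (b.X h).Uk) (unif v) (b.Uk_good h hb h0)).f g =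
      (LocFam.TTb (L := (b.X h).Lk) (U := (b.X h).Uk) ϖ (b.Uk_good h hb h0)).f g
    rw [LocFam.TTb_f, LocFam.TTb_f]
    have e1 : HS ((b.X h).Lk.O v) (unif v) = HS ((b.X h).Lk.O v) ϖ :=
      HS_eq_of_val (valued_unif v) hϖ
    rw [e1]
  have key : ∀ (F : BiInv ((b.X h).Uk.U v)) (hF : F ∈ ((b.X h).alg v).carrier)
      (F' : Hk ((b.X h).Uk.U v)) (he : F = F'.toBiInv),
      Ctx.MK (Ctx.single v (b.mem_spl h hb h0 hs) j F hF) = LocFam.GFun.single v F' := by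
    rintro _ hF F' rfl
    exact Ctx.MK_single _ _ _ _ _
  exact key _ _ _ e

theorem Bad.tj_TTb (hb : v ∉ b.bad) (h0 : v ≠ b.v0) (hs : IsSpl σ v) (j : Fin 3)
    (hϖ : Valued.v (ϖ : v.adicCompletion k) = exp (-1 : ℤ)) :
    Ctx.tj (X := b.X h) v (b.mem_spl h hb h0 hs) j
      (LocFam.TTb (L := (b.X h).Lk) (U := (b.X h).Uk) (unif v) (b.Uk_good h hb h0)) =
    LocFam.TTb (L := (b.X h).LE) (U := (b.X h).UE) ((spr_split h hs).un3 j ϖ)
      (b.UE_good h hb h0) := by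
  classical
  have hP := (b.X h).prod v (b.mem_spl h hb h0 hs)
  have hπ := b.π_good h hb h0 hs (b.mem_spl h hb h0 hs)
  rw [hπ] at hP
  have e := LocFam.TTb_un3 (L := (b.X h).Lk) (L' := (b.X h).LE) (U := (b.X h).Uk)
    (U' := (b.X h).UE) (spr_split h hs) (spr_prod h hs) (b.Uk_good h hb h0) (b.UE_good h hb h0)
    hP j ϖ
  refine Eq.trans ?_ e.symm
  refine BiInv.ext' fun g => ?_
  have e1 : HS ((b.X h).Lk.O v) (unif v) = HS ((b.X h).Lk.O v) ϖ :=
    HS_eq_of_val (valued_unif v) hϖ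
  have e2 : (LocFam.TTb (L := (b.X h).Lk) (U := (b.X h).Uk) (unif v) (b.Uk_good h hb h0)) =
      LocFam.TTb (L := (b.X h).Lk) (U := (b.X h).Uk) ϖ (b.Uk_good h hb h0) := by
    refine BiInv.ext' fun g => ?_
    rw [LocFam.TTb_f, LocFam.TTb_f, e1]
  rw [Ctx.tj, e2, tens3_f, tens3_f, hπ]
  rfl

/-- **the Hecke operator on the `E`-side**, as in helper19's killing data -/
theorem Bad.ME_sT (hb : v ∉ b.bad) (h0 : v ≠ b.v0) (hs : IsSpl σ v) (j : Fin 3)
    (hu : Unif (Oc v) ϖ B) (hϖ : Valued.v (ϖ : v.adicCompletion k) = exp (-1 : ℤ)) :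
    Ctx.ME (b.sT h hb h0 hs j) = LocFam.GFun.single v
      (LocFam.TTh (L := locE k E) (U := (b.X h).UE)
        ((spr_split h hs).unif_un3 (spr_prod h hs) hu j) (b.UE_good h hb h0)) := by
  rw [Bad.sT, Ctx.ME_single]
  congr 1
  apply Hk.ext_f
  intro g
  exact congrFun (congrArg BiInv.f (b.tj_TTb h hb h0 hs j hϖ)) g

/-- **the Hecke operator on the `E`-side**, at the place `plc j` -/
theorem Bad.ME_sT' (hb : v ∉ b.bad) (h0 : v ≠ b.v0) (hs : IsSpl σ v) (j : Fin 3) :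
    Ctx.ME (b.sT h hb h0 hs j) = LocFam.GFun.single v
      (LocFam.TTh (L := locE k E) (U := (b.X h).UE)
        (unif_OE (hs.choose_spec.plc h j)) (b.UE_good h hb h0)) := by
  rw [b.ME_sT h hb h0 hs j (unifOc_reps v) (valued_unif v)]
  congr 1
  apply Hk.ext_f
  intro g
  exact hs.choose_spec.TTb_un3_apply h j (valued_unif v) (b.UE_good h hb h0) g

/-- **the data at the Iwahori place** -/
noncomputable def Bad.v0Data : Ctx.V0Data (b.X h) := by
  have key : ∀ (P : PDK σ b.v0) (hP : P = iwPD h b.v0_spl)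
      (hV : P.V = V0.Iw (Oc (K := k) b.v0) (unif b.v0)),
      (∀ F ∈ P.alg.carrier, ∃ a ∈ algUZ (unifOc_reps b.v0) hV, a.toBiInv = F) ∧
      (∀ a ∈ algUZ (unifOc_reps b.v0) hV, a.toBiInv ∈ P.alg.carrier) := by
    rintro _ rfl hV
    have e : algUZ (unifOc_reps b.v0) hV = (Algebra.adjoin ℂ {V0.iwU (unifOc_reps b.v0),
        V0.iwZ (unifOc_reps b.v0)}).map (toHk : V0.HAlg _ ≃ₐ[ℂ] Hk _).toAlgHom := by
      rw [AlgHom.map_adjoin, Set.image_pair]
      rfl
    constructor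
    · rintro F ⟨a, ha, rfl⟩
      exact ⟨toHk a, by rw [e]; exact ⟨a, ha, rfl⟩, rfl⟩
    · intro a ha
      rw [e] at ha
      obtain ⟨a, ha, rfl⟩ := ha
      exact ⟨a, ha, rfl⟩
  have key' := key _ (b.P_v0 h) (b.Uk_v0 h)
  exact
    { v := b.v0
      hv := b.v0_mem_spl h
      ϖ := unif b.v0
      B := reps b.v0
      unif := unifOc_reps b.v0
      iw := b.Uk_v0 h
      alg_sub := key'.1
      alg_sup := key'.2 }

theorem Bad.v0Data_v : (b.v0Data h).v = b.v0 := rfl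

end Fermat.Agent.LT.Mp
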