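import Fermat.Agent.LT.Mp.Good
import Fermat.Agent.LT.Mp.Hecke
import Fermat.Agent.LT.Glob.HypI

set_option autoImplicit false

/-!
# Good symbols in the concrete context
-/

namespace Fermat.Agent.LT.Mp

open Matrix Filter Fermat.Agent.LT.Loc Fermat.Agent.LT.Glob NumberField IsDedekindDomain
open scoped MatrixGroups

universe u

section Conc

variable {k E : Type u} [Field k] [NumberField k] [Field E] [NumberField E] [Algebra k E]
  {σ : E ≃ₐ[k] E} (h : Gal3 σ) (b : Bad σ)

/-- **good symbols** -/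
theorem Bad.exists_good {G : (b.X h).Sym} (hG : (b.v0Data h).Pure G) (B : ℝ) :
    ∃ m₀ : ℕ, ∀ m, m₀ ≤ m → Ctx.IsGood (G * (b.v0Data h).u m) B := by
  refine (b.v0Data h).exists_good (normK k) (normE k E) (inv_normE σ) (fun x => ?_)
    (fun y hy => strE_mem.mpr hy) ?_ ?_ hG B
  · have key : ∀ x : b.v0.adicCompletion k, x ∈ Oc (K := k) b.v0 ∨
        ∃ y ∈ Oc (K := k) b.v0, x * y = 1 := by
      intro x
      by_cases hx : x = 0
      · left
        rw [hx]
        exact zero_mem _
      rcases Oc_total x with h1 | h1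
      · exact Or.inl h1
      · exact Or.inr ⟨x⁻¹, h1, mul_inv_cancel₀ hx⟩
    exact key x
  · exact strict_normK b.v0 (unif b.v0) (unifOc_reps b.v0).mem (unifOc_reps b.v0).not_mem
  · refine strict_normE b.v0 _ ?_ ?_
    · exact strE_mem.mpr (unifOc_reps b.v0).mem
    · intro hcon
      have hcon' : strE E b.v0 (((unif b.v0)⁻¹ : (b.v0.adicCompletion k)ˣ) :
          b.v0.adicCompletion k) ∈ OE E b.v0 := hcon
      exact (unifOc_reps b.v0).not_mem (strE_mem.mp hcon')

end Conc

end Fermat.Agent.LT.Mp
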