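import Fermat.Agent.LT.Mp.V0Supp
import Fermat.Agent.LT.Glob.EllSupp

set_option autoImplicit false

/-!
# Hyperbolic supports of the matched symbols
-/

namespace Fermat.Agent.LT.Mp

open Matrix Filter Fermat.Agent.LT.Loc Fermat.Agent.LT.Glob Fermat.Agent.LT.V0
open scoped MatrixGroups

universe w u u' i'

section SU

/-- the sets `⋃_{i ≥ M} SU i` -/
def SUge {R : Type u} [CommRing R] (O : Subring R) (ϖ : Rˣ) (M : ℕ) : Set PGL(2, R) :=
  {g | ∃ i, M ≤ i ∧ g ∈ SU O ϖ i}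

/-- strong hyperbolicity, for a commutative ring which is a field -/
theorem strong_SUge {K : Type u} [CommRing K] (hf : IsField K) {O : Subring K} {ϖ : Kˣ}
    {B : Finset K} (h : Unif O ϖ B) (hval : ∀ x : K, x ∈ O ∨ ∃ y ∈ O, x * y = 1) {M : ℕ}
    (hM : 1 ≤ M) : Strong O ϖ M (SUge O ϖ M) := by
  let _ := hf.toField
  refine strong_iUnion_SU h (fun x => ?_) hM
  rcases hval x with h1 | ⟨y, hy, h1⟩
  · exact Or.inl h1
  · right
    rw [inv_eq_of_mul_eq_one_right h1]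
    exact hy

theorem trace_ne_zero_SUge {K : Type u} [CommRing K] (hf : IsField K) {O : Subring K} {ϖ : Kˣ}
    {B : Finset K} (h : Unif O ϖ B) {M : ℕ} {γ : GL (Fin 2) K} {x : PGL(2, K)}
    (hx : x⁻¹ * ProjGenLinGroup.mk γ * x ∈ SUge O ϖ M) :
    (γ : Matrix (Fin 2) (Fin 2) K).trace ≠ 0 := by
  let _ := hf.toField
  obtain ⟨i, -, hx⟩ := hx
  exact trace_ne_zero_of_conj_mem_SU h hx

end SU

/-- the kernel at `(x, γ σ(x))` -/
theorem exists_of_ker_ne_zero {F : Type u} [Field F] {ι : Type i'} {L : LocFam.{w} F ι}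
    {U : L.Level} {φ : LocFam.GFun U} {A : LocFam.Auto L} (h : A.Pres U) {γ : GL (Fin 2) F}
    {x : LocFam.D U} (hx : φ.ker x (γ • LocFam.Auto.dmap h x) ≠ 0) (v : ι) :
    ∃ g : L.G v, (φ.f v).f (g⁻¹ * L.emb v γ * A.g v g) ≠ 0 := by
  have h1 := LocFam.GFun.ker_ne_zero hx v
  obtain ⟨g, hg⟩ := QuotientGroup.mk_surjective (x v)
  refine ⟨g, ?_⟩
  rw [LocFam.smul_apply, LocFam.Auto.dmap_apply, ← hg, LocFam.Auto.xmap_mk] at h1
  have h2 : (φ v).ker (g : L.G v ⧸ U.U v) ((L.emb v γ * A.g v g : L.G v) : L.G v ⧸ U.U v) ≠ 0 := h1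
  rw [Hk.ker_mk, ← mul_assoc] at h2
  exact h2

theorem exists_of_ker_ne_zero' {F : Type u} [Field F] {ι : Type i'} {L : LocFam.{w} F ι}
    {U : L.Level} {φ : LocFam.GFun U} {γ : GL (Fin 2) F}
    {x : LocFam.D U} (hx : φ.ker x (γ • x) ≠ 0) (v : ι) :
    ∃ g : L.G v, (φ.f v).f (g⁻¹ * L.emb v γ * g) ≠ 0 := by
  have h1 := LocFam.GFun.ker_ne_zero hx v
  obtain ⟨g, hg⟩ := QuotientGroup.mk_surjective (x v)
  refine ⟨g, ?_⟩
  rw [LocFam.smul_apply, ← hg] at h1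
  have h2 : (φ v).ker (g : L.G v ⧸ U.U v) ((L.emb v γ * g : L.G v) : L.G v ⧸ U.U v) ≠ 0 := h1
  rw [Hk.ker_mk, ← mul_assoc] at h2
  exact h2

/-! ### the symbols -/

namespace Ctx

variable {k : Type u} {E : Type u'} [Field k] [Field E] [Algebra k E] {ι : Type i'}
  {X : Ctx.{w} k E ι}

/-- **good symbols**: hyperbolic supports on both sides, and nonzero traces -/
structure IsGood [NumberField k] [NumberField E] (G : X.Sym) (B : ℝ) : Prop where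
  hypE : ∀ (T : Sp.Twist E (LocFam.D X.UE)), (∀ x, T.dm x = LocFam.Auto.dmap X.pres x) →
    Sp.HypSupp T (fun x y => (PE G).ker x y ≠ 0) B
  hypK : ∀ (T : Sp.Twist k (LocFam.D X.Uk)), (∀ x, T.dm x = x) →
    Sp.HypSupp T (fun x y => (PK G).ker x y ≠ 0) B
  nsE : ∀ (t : GL (Fin 2) E) (x : LocFam.D X.UE),
    (PE G).ker x (t • LocFam.Auto.dmap X.pres x) ≠ 0 →
      Tw.NS ((t * GeneralLinearGroup.map (X.A.θ : E →+* E) t * GeneralLinearGroup.map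
        (X.A.θ : E →+* E) (GeneralLinearGroup.map (X.A.θ : E →+* E) t) : GL (Fin 2) E) :
          Matrix (Fin 2) (Fin 2) E)
  trE : ∀ (t : GL (Fin 2) E) (x : LocFam.D X.UE),
    (PE G).ker x (t • LocFam.Auto.dmap X.pres x) ≠ 0 →
      ((t * GeneralLinearGroup.map (X.A.θ : E →+* E) t * GeneralLinearGroup.map (X.A.θ : E →+* E)
        (GeneralLinearGroup.map (X.A.θ : E →+* E) t) : GL (Fin 2) E) :
          Matrix (Fin 2) (Fin 2) E).trace ≠ 0
  trK : ∀ (γ : GL (Fin 2) k) (x : LocFam.D X.Uk), (PK G).ker x (γ • x) ≠ 0 →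
    (γ : Matrix (Fin 2) (Fin 2) k).trace ≠ 0

namespace V0Data

variable (d : V0Data X)

/-- **hyperbolic supports on the `k`-side** -/
theorem hypSupp_K [NumberField k] (Nm : X.Lk.LocNorm)
    (hval : ∀ x : X.Lk.R d.v, x ∈ X.Lk.O d.v ∨ ∃ y ∈ X.Lk.O d.v, x * y = 1)
    (hnm : Nm.nm d.v d.ϖ < 1) (G : X.Sym) (B : ℝ) : ∃ m₀ : ℕ, ∀ m, m₀ ≤ m →
      ∀ (T : Sp.Twist k (LocFam.D X.Uk)), (∀ x, T.dm x = x) →
      Sp.HypSupp T (fun x y => (PK (G * d.u m)).ker x y ≠ 0) B := by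
  obtain ⟨c, hc⟩ := d.pK_supp G
  obtain ⟨M, hM⟩ := Nm.exists_hyp (PK G).sfam d.unif.mem hnm B
  refine ⟨c + M + 1, fun m hm T hT => ?_⟩
  have key := hM (m - c) (by omega) (PK (G * d.u m)).supp (fun v hv y hy => by
      rw [LocFam.GFun.mem_supp, PK_f, pK_mul_u_off d G m hv] at hy
      exact hy) (PK (G * d.u m)).supp_inv
    ((strong_SUge (X.isField d.v) d.unif hval (M := m - c) (by omega)).mono fun g hg => by
      obtain ⟨i, hi, hgi⟩ := hc m (by omega) g hg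
      exact ⟨i, by omega, hgi⟩) T hT
  exact key.mono fun x y h => LocFam.GFun.relD_supp h

/-- the product of the three components of an element of the support at `v₀` -/
theorem nm_mem_SUge {G : X.Sym} (hG : d.Pure G) : ∃ c : ℕ, ∀ m, c < m → ∀ g : X.LE.G d.v,
    (pE (G * d.u m) d.v).f g ≠ 0 →
    ProjGenLinGroup.map (X.π d.v d.hv) g * ProjGenLinGroup.map (X.π d.v d.hv) (X.A.g d.v g) *
      ProjGenLinGroup.map (X.π d.v d.hv) (X.A.g d.v (X.A.g d.v g)) ∈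
        SUge (X.Lk.O d.v) d.ϖ (m - c) := by
  obtain ⟨c, hc⟩ := d.pE_supp hG
  refine ⟨c, fun m hm g hg => ?_⟩
  obtain ⟨⟨i, hi, h0⟩, h1, h2⟩ := hc m hm g hg
  exact ⟨i, by omega, SU_mul_right d.unif (SU_mul_right d.unif h0 h1) h2⟩

/-- **hyperbolic supports on the `E`-side** -/
theorem hypSupp_E [NumberField E] (Nm : X.LE.LocNorm) (hA : Nm.Inv X.A)
    (hval : ∀ x : X.Lk.R d.v, x ∈ X.Lk.O d.v ∨ ∃ y ∈ X.Lk.O d.v, x * y = 1)
    (hi : ∀ y ∈ X.Lk.O d.v, X.i d.v y ∈ X.LE.O d.v)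
    (hnm : Nm.nm d.v (Units.map (X.i d.v : X.Lk.R d.v →* X.LE.R d.v) d.ϖ) < 1)
    {G : X.Sym} (hG : d.Pure G) (B : ℝ) : ∃ m₀ : ℕ, ∀ m, m₀ ≤ m →
      ∀ (T : Sp.Twist E (LocFam.D X.UE)), (∀ x, T.dm x = LocFam.Auto.dmap X.pres x) →
      Sp.HypSupp T (fun x y => (PE (G * d.u m)).ker x y ≠ 0) B := by
  obtain ⟨c, hc⟩ := d.nm_mem_SUge hG
  obtain ⟨M, hM⟩ := Nm.exists_hyp3 hA (PE G).sfam (X.split d.v d.hv) hi d.unif.mem hnm B
  refine ⟨c + M + 1, fun m hm T hT => ?_⟩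
  have key := hM (m - c) (by omega) (PE (G * d.u m)).supp (fun v hv y hy => by
      rw [LocFam.GFun.mem_supp, PE_f, pE_mul_u_off d G m hv] at hy
      exact hy) (PE (G * d.u m)).supp_inv _
    (strong_SUge (X.isField d.v) d.unif hval (M := m - c) (by omega))
    (fun y hy => hc m (by omega) y hy) T X.pres hT
  exact key.mono fun x y h => LocFam.GFun.relD_supp h

/-- traces on the `k`-side -/
theorem trace_K (G : X.Sym) : ∃ m₀ : ℕ, ∀ m, m₀ ≤ m → ∀ (γ : GL (Fin 2) k) (x : LocFam.D X.Uk),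
    (PK (G * d.u m)).ker x (γ • x) ≠ 0 → (γ : Matrix (Fin 2) (Fin 2) k).trace ≠ 0 := by
  obtain ⟨c, hc⟩ := d.pK_supp G
  refine ⟨c + 1, fun m hm γ x hx => ?_⟩
  obtain ⟨g, hg⟩ := exists_of_ker_ne_zero' hx d.v
  obtain ⟨i, hi, hgi⟩ := hc m (by omega) _ hg
  have h1 : g⁻¹ * ProjGenLinGroup.mk (GeneralLinearGroup.map (X.Lk.loc d.v) γ) * g ∈
      SUge (X.Lk.O d.v) d.ϖ 0 := ⟨i, Nat.zero_le _, hgi⟩
  have h2 := trace_ne_zero_SUge (X.isField d.v) d.unif h1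
  intro h0
  apply h2
  have h3 : ((GeneralLinearGroup.map (X.Lk.loc d.v) γ : GL (Fin 2) (X.Lk.R d.v)) :
      Matrix (Fin 2) (Fin 2) (X.Lk.R d.v)).trace =
      X.Lk.loc d.v (γ : Matrix (Fin 2) (Fin 2) k).trace := by
    rw [Matrix.trace_fin_two, Matrix.trace_fin_two, map_add]
    rfl
  rw [h3, h0, map_zero]

/-- traces on the `E`-side -/
theorem trace_E {G : X.Sym} (hG : d.Pure G) : ∃ m₀ : ℕ, ∀ m, m₀ ≤ m → ∀ (t : GL (Fin 2) E)
    (x : LocFam.D X.UE), (PE (G * d.u m)).ker x (t • LocFam.Auto.dmap X.pres x) ≠ 0 →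
      Tw.NS ((t * GeneralLinearGroup.map (X.A.θ : E →+* E) t * GeneralLinearGroup.map
        (X.A.θ : E →+* E) (GeneralLinearGroup.map (X.A.θ : E →+* E) t) : GL (Fin 2) E) :
          Matrix (Fin 2) (Fin 2) E) ∧
      ((t * GeneralLinearGroup.map (X.A.θ : E →+* E) t * GeneralLinearGroup.map (X.A.θ : E →+* E)
        (GeneralLinearGroup.map (X.A.θ : E →+* E) t) : GL (Fin 2) E) :
          Matrix (Fin 2) (Fin 2) E).trace ≠ 0 := by
  obtain ⟨c, hc⟩ := d.nm_mem_SUge hG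
  refine ⟨c + 1, fun m hm t x hx => ?_⟩
  obtain ⟨g, hg⟩ := exists_of_ker_ne_zero X.pres hx d.v
  have h1 := hc m (by omega) _ hg
  set p : X.LE.G d.v →* PGL(2, X.Lk.R d.v) := ProjGenLinGroup.map (X.π d.v d.hv) with hp
  have hcube : ∀ y : X.LE.G d.v, X.A.g d.v (X.A.g d.v (X.A.g d.v y)) = y := by
    intro y
    induction y using ProjGenLinGroup.induction_on with
    | mk y =>
      rw [LocFam.Auto.g, ProjGenLinGroup.map_mk, ProjGenLinGroup.map_mk, ProjGenLinGroup.map_mk]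
      congr 1
      ext i j
      exact (X.split d.v d.hv).cube _
  set N : GL (Fin 2) E := t * GeneralLinearGroup.map (X.A.θ : E →+* E) t *
    GeneralLinearGroup.map (X.A.θ : E →+* E) (GeneralLinearGroup.map (X.A.θ : E →+* E) t) with hN
  have e1 : p (g⁻¹ * X.LE.emb d.v t * X.A.g d.v g) *
      p (X.A.g d.v (g⁻¹ * X.LE.emb d.v t * X.A.g d.v g)) *
      p (X.A.g d.v (X.A.g d.v (g⁻¹ * X.LE.emb d.v t * X.A.g d.v g))) =
      (p g)⁻¹ * ProjGenLinGroup.mk (GeneralLinearGroup.map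
        ((X.π d.v d.hv).comp (X.LE.loc d.v)) N) * p g := by
    have e2 : (ProjGenLinGroup.mk (GeneralLinearGroup.map
        ((X.π d.v d.hv).comp (X.LE.loc d.v)) N) : PGL(2, X.Lk.R d.v)) =
        p (X.LE.emb d.v N) := by
      rw [LocFam.emb_eq, hp, ProjGenLinGroup.map_mk]
      congr 1
    rw [e2, hN, map_mul (X.LE.emb d.v), map_mul (X.LE.emb d.v), ← LocFam.Auto.g_emb,
      ← LocFam.Auto.g_emb, ← LocFam.Auto.g_emb]
    simp only [map_mul, map_inv, hcube]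
    group
  rw [e1] at h1
  refine ⟨fun a ha => ?_, ?_⟩
  · obtain ⟨i, -, hi⟩ := h1
    apply mk_ne_one_of_conj_SU hi
    have ha0 : a ≠ 0 := by
      rintro rfl
      rw [zero_smul] at ha
      exact N.ne_zero ha
    have e : N = GeneralLinearGroup.scalar (Fin 2) (Units.mk0 a ha0) := by
      apply Units.ext
      rw [ha, GeneralLinearGroup.coe_scalar]
      exact Matrix.smul_one_eq_diagonal _
    rw [← ProjGenLinGroup.map_mk, e, ProjGenLinGroup.mk_scalar, map_one]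
  have h2 := trace_ne_zero_SUge (X.isField d.v) d.unif h1
  intro h0
  apply h2
  have h3 : ((GeneralLinearGroup.map ((X.π d.v d.hv).comp (X.LE.loc d.v)) N :
      GL (Fin 2) (X.Lk.R d.v)) : Matrix (Fin 2) (Fin 2) (X.Lk.R d.v)).trace =
      ((X.π d.v d.hv).comp (X.LE.loc d.v)) (N : Matrix (Fin 2) (Fin 2) E).trace := by
    rw [Matrix.trace_fin_two, Matrix.trace_fin_two, map_add]
    rfl
  rw [h3, h0, map_zero]

/-- **For large `m` the symbol `G * u m` is good.** -/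
theorem exists_good [NumberField k] [NumberField E] (Nk : X.Lk.LocNorm) (NE : X.LE.LocNorm)
    (hA : NE.Inv X.A)
    (hval : ∀ x : X.Lk.R d.v, x ∈ X.Lk.O d.v ∨ ∃ y ∈ X.Lk.O d.v, x * y = 1)
    (hi : ∀ y ∈ X.Lk.O d.v, X.i d.v y ∈ X.LE.O d.v) (hnk : Nk.nm d.v d.ϖ < 1)
    (hnE : NE.nm d.v (Units.map (X.i d.v : X.Lk.R d.v →* X.LE.R d.v) d.ϖ) < 1)
    {G : X.Sym} (hG : d.Pure G) (B : ℝ) : ∃ m₀ : ℕ, ∀ m, m₀ ≤ m → IsGood (G * d.u m) B := by
  obtain ⟨m₁, h₁⟩ := d.hypSupp_K Nk hval hnk G B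
  obtain ⟨m₂, h₂⟩ := d.hypSupp_E NE hA hval hi hnE hG B
  obtain ⟨m₃, h₃⟩ := d.trace_K G
  obtain ⟨m₄, h₄⟩ := d.trace_E hG
  refine ⟨m₁ + m₂ + m₃ + m₄, fun m hm => ⟨?_, ?_, ?_, ?_, ?_⟩⟩
  · exact h₂ m (by omega)
  · exact h₁ m (by omega)
  · exact fun t x hx => (h₄ m (by omega) t x hx).1
  · exact fun t x hx => (h₄ m (by omega) t x hx).2
  · exact h₃ m (by omega)

end V0Data

end Ctx

end Fermat.Agent.LT.Mp
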