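import Fermat.Agent.LT.Mp.Inst
import Fermat.Agent.LT.Mp.Good
import Fermat.Agent.LT.Tw.NormNear
import Fermat.Agent.LT.Op.Full

set_option autoImplicit false
set_option linter.unusedSectionVars false

/-!
# The support of the matched functions on the `k`-side consists of norms
-/

namespace Fermat.Agent.LT.Mp

open Matrix Filter Fermat.Agent.LT.Loc Fermat.Agent.LT.Glob NumberField
  IsDedekindDomain IsDedekindDomain.HeightOneSpectrum WithZero
open scoped MatrixGroups

universe w u u' i'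

/-- `Gal3` implies `Cyc3` -/
theorem cyc3_of_gal3 {k : Type u} {E : Type u'} [Field k] [Field E] [Algebra k E]
    {σ : E ≃ₐ[k] E} (h : Gal3 σ) : Tw.Cyc3 σ where
  cube := h.cube
  fix := h.fixed
  ne := by
    by_contra hcon
    have hc : ∀ x, σ x = x := fun x => not_not.1 fun hx => hcon ⟨x, hx⟩
    obtain ⟨n, x, y, h1, h2, -⟩ := h.dual
    simp only [hc] at h2
    rw [h1] at h2
    exact one_ne_zero h2

section LR

variable {k : Type u} {E : Type u'} [Field k] [NumberField k] [Field E] [NumberField E]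
  [Algebra k E] {σ : E ≃ₐ[k] E}

theorem unit_OE (v : HeightOneSpectrum (𝓞 k)) {y : RE E v}
    (hy : y ∈ NO (OE E v) (Ideal.absNorm v.asIdeal)) : ∃ z ∈ OE E v, (1 + y) * z = 1 := by
  obtain ⟨z, hz, rfl⟩ := hy
  have h2 : ∀ w : Fib E v, ∃ z' ∈ Oc w.1,
      (1 + ((Ideal.absNorm v.asIdeal : ℕ) : w.1.adicCompletion E) * z w) * z' = 1 := by
    intro w
    apply exists_one_add_mul
    rw [map_mul]
    refine mul_lt_one_of_lt_of_le ?_ (hz w)
    have h3 : ((Ideal.absNorm v.asIdeal : ℕ) : w.1.adicCompletion E) =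
      Glob.ext (above_fib w) ((Ideal.absNorm v.asIdeal : ℕ) : v.adicCompletion k) := by
      rw [map_natCast]
    rw [h3, valued_ext]
    refine pow_lt_one₀ zero_le ?_ (above_fib w).1
    rw [← map_natCast (algebraMap k (v.adicCompletion k)), valued_algebraMap,
      ← map_natCast (algebraMap (𝓞 k) k)]
    exact (v.valuation_lt_one_iff_mem _).2 (Ideal.absNorm_mem v.asIdeal)
  choose z' hz' hz'' using h2
  exact ⟨z', hz', funext hz''⟩

/-- the hypotheses of the local norm theorem -/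
theorem locRing (h : Gal3 σ) (v : HeightOneSpectrum (𝓞 k)) :
    Tw.LocRing σ v (OE E v) (locHom E v) (sHom v σ) (Ideal.absNorm v.asIdeal) where
  s_loc := sHom_loc σ
  cube := (gal3_RE h).cube
  s_mem := fun x hx => sHom_mem σ hx
  dense N hN x := by
    classical
    obtain ⟨a, ha, -⟩ := (locE k E).dense {v} (Pi.single v x) N hN
    refine ⟨a, ?_⟩
    have h1 := ha v (Finset.mem_singleton_self v)
    rwa [Pi.single_eq_same] at h1
  denom := (locE k E).denom v
  ℓ_ne := by
    rw [Ne, Ideal.absNorm_eq_zero_iff]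
    exact v.ne_bot
  unit x hx := unit_OE v hx
  val a ha := by
    obtain ⟨w⟩ := (inferInstance : Nonempty (Fib E v))
    have h1 := mem_NO_OE.1 ha w
    have h27 : 27 * Ideal.absNorm v.asIdeal ≠ 0 := mul_ne_zero (by norm_num) (by
      rw [Ne, Ideal.absNorm_eq_zero_iff]
      exact v.ne_bot)
    rw [mem_NO_Oc (natCast_adicCompletion_ne_zero w.1 h27), locHom_apply, valued_algebraMap,
      ← map_natCast (algebraMap E (w.1.adicCompletion E)), valued_algebraMap,
      ← map_natCast (algebraMap k E), (above_fib w).2, (above_fib w).2] at h1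
    have h2 := le_of_pow_le_pow_left₀ (above_fib w).1 zero_le h1
    refine lt_of_le_of_lt h2 ?_
    have h3 : v.valuation k ((Ideal.absNorm v.asIdeal : ℕ) : k) < 1 := by
      rw [← map_natCast (algebraMap (𝓞 k) k)]
      exact (v.valuation_lt_one_iff_mem _).2 (Ideal.absNorm_mem v.asIdeal)
    have h4 : v.valuation k 27 ≠ 0 := (Valuation.ne_zero_iff _).2 (by norm_num)
    push_cast
    rw [map_mul]
    calc v.valuation k 27 * v.valuation k ((Ideal.absNorm v.asIdeal : ℕ) : k)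
        < v.valuation k 27 * 1 := by
          exact (mul_lt_mul_iff_right₀ (zero_lt_iff.2 h4)).2 h3
      _ = v.valuation k 27 := mul_one _

end LR

section Supp

variable {k : Type u} {E : Type u'} [Field k] [NumberField k] [Field E] [NumberField E]
  [Algebra k E] {σ : E ≃ₐ[k] E}

theorem disc_of_ell {F : Type*} [Field F] [CharZero F] {A : Matrix (Fin 2) (Fin 2) F}
    (h : Tw.Ell A) : A.trace ^ 2 - 4 * A.det ≠ 0 := by
  intro h0
  rw [Tw.ell_iff] at h
  apply h (A.trace / 2)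
  have h2 : (2 : F) ≠ 0 := two_ne_zero
  field_simp
  linear_combination -h0

namespace Ctx

variable {ι : Type i'}

/-- **the local norm condition at `v`** -/
theorem exists_local (X : Ctx.{w} k E ι) (G : X.Sym) {γ : GL (Fin 2) k}
    (hγ : Tw.Ell (γ : Matrix (Fin 2) (Fin 2) k)) {x : LocFam.D X.Uk}
    (hx : (PK G).ker x (γ • x) ≠ 0) (v : ι) :
    ∃ (y : GL (Fin 2) (X.LE.R v)) (c : (X.Lk.R v)ˣ),
      y * GeneralLinearGroup.map (X.LE.loc v) (Tw.bc γ) =
        GeneralLinearGroup.map (X.LE.loc v) (Tw.bc γ) * y ∧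
      y * GeneralLinearGroup.map (X.A.s v : X.LE.R v →+* X.LE.R v) y *
        GeneralLinearGroup.map (X.A.s v : X.LE.R v →+* X.LE.R v)
          (GeneralLinearGroup.map (X.A.s v : X.LE.R v →+* X.LE.R v) y) =
      Tw.scR (Units.map (X.i v : X.Lk.R v →* X.LE.R v) c) *
        GeneralLinearGroup.map (X.LE.loc v) (Tw.bc γ) := by
  obtain ⟨g, hg⟩ := exists_of_ker_ne_zero' hx v
  obtain ⟨g, rfl⟩ := ProjGenLinGroup.mk_surjective g
  have := (X.isField v).nontrivial
  have hd : ((GeneralLinearGroup.map (X.Lk.loc v) γ : GL (Fin 2) (X.Lk.R v)) :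
      Matrix (Fin 2) (Fin 2) (X.Lk.R v)).trace ^ 2 -
      4 * ((GeneralLinearGroup.map (X.Lk.loc v) γ : GL (Fin 2) (X.Lk.R v)) :
      Matrix (Fin 2) (Fin 2) (X.Lk.R v)).det ≠ 0 := by
    have e : ((GeneralLinearGroup.map (X.Lk.loc v) γ : GL (Fin 2) (X.Lk.R v)) :
      Matrix (Fin 2) (Fin 2) (X.Lk.R v)).trace ^ 2 -
      4 * ((GeneralLinearGroup.map (X.Lk.loc v) γ : GL (Fin 2) (X.Lk.R v)) :
      Matrix (Fin 2) (Fin 2) (X.Lk.R v)).det = X.Lk.loc v
        ((γ : Matrix (Fin 2) (Fin 2) k).trace ^ 2 - 4 * (γ : Matrix (Fin 2) (Fin 2) k).det) := by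
      simp only [Matrix.trace_fin_two, Matrix.det_fin_two, map_sub, map_mul, map_pow, map_add,
        map_ofNat]
      rfl
    rw [e]
    exact (map_ne_zero_iff _ (X.Lk.loc v).injective).2 (disc_of_ell hγ)
  obtain ⟨y, c, h1, h2⟩ := (isMatch G v).norm (GeneralLinearGroup.map (X.Lk.loc v) γ) g hd hg
  have e2 : GeneralLinearGroup.map (X.i v) (GeneralLinearGroup.map (X.Lk.loc v) γ) =
      GeneralLinearGroup.map (X.LE.loc v) (Tw.bc (E := E) γ) := by
    apply Units.ext
    ext i j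
    exact X.i_loc v _
  rw [e2] at h1
  refine ⟨y, c, h1, ?_⟩
  rw [h2, map_mul, e2]
  congr 1
  apply Units.ext
  rw [Tw.coe_scR]
  ext i j
  change X.i v ((GeneralLinearGroup.scalar (Fin 2) c : GL (Fin 2) (X.Lk.R v)) i j) = _
  rw [GeneralLinearGroup.coe_scalar]
  fin_cases i <;> fin_cases j <;> simp

end Ctx

end Supp

section Main

variable {k E : Type u} [Field k] [NumberField k] [Field E] [NumberField E] [Algebra k E]
  {σ : E ≃ₐ[k] E} (h : Gal3 σ) (b : Bad σ)

include h in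
/-- **local norms at every place** -/
theorem Bad.locNear (G : (b.X h).Sym) {γ : GL (Fin 2) k}
    (hγ : Tw.Ell (γ : Matrix (Fin 2) (Fin 2) k)) {x : LocFam.D (b.X h).Uk}
    (hx : (Ctx.PK G).ker x (γ • x) ≠ 0) (v : HeightOneSpectrum (𝓞 k)) : Tw.LocNear σ v γ := by
  obtain ⟨y, c, h1, h2⟩ := Ctx.exists_local (b.X h) G hγ hx v
  exact Tw.locNear_of_norm (locRing h v) (cyc3_of_gal3 h) hγ
    (z := Units.map (strE E v : v.adicCompletion k →* RE E v) c) (sHom_str σ _) h1 h2

/-- **The support on the `k`-side consists of norms.** -/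
theorem Bad.norm_supp {ζ : k} (hζ : IsPrimitiveRoot ζ 3) (G : (b.X h).Sym) {γ : GL (Fin 2) k}
    (hγ : Tw.Ell (γ : Matrix (Fin 2) (Fin 2) k)) {x : LocFam.D (b.X h).Uk}
    (hx : (Ctx.PK G).ker x (γ • x) ≠ 0) :
    ∃ t : GL (Fin 2) E, Tw.nm σ t = Tw.bc (Tw.sc (GeneralLinearGroup.det γ) * γ) :=
  Tw.exists_norm (cyc3_of_gal3 h) hζ hγ fun v => Or.inr (b.locNear h G hγ hx v)

/-- the hypothesis `hN` of the comparison of the geometric sides -/
theorem Bad.hN {ζ : k} (hζ : IsPrimitiveRoot ζ 3) (G : (b.X h).Sym)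
    (κk : InfinitePlace k → LT.IKer) (g : GL (Fin 2) k)
    (x : LT.HF k × LocFam.D (b.X h).Uk)
    (hx : Op.pk κk (Ctx.PK G).toDKer x (g • x) ≠ 0)
    (hγ : Tw.Ell (g : Matrix (Fin 2) (Fin 2) k)) :
    ∃ t : GL (Fin 2) E, Tw.nm σ t = Tw.bc (Tw.sc (GeneralLinearGroup.det g) * g) :=
  b.norm_supp h hζ G hγ (x := x.2) (right_ne_zero_of_mul hx)

end Main

end Fermat.Agent.LT.Mp
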