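import Fermat.Agent.LT.Loc.SplitMatch
import Fermat.Agent.LT.Glob.Def

/-!
# The global correspondence from the local matchings
-/

set_option autoImplicit false

universe w t u u' i'

namespace Fermat.Agent.LT.Mp

open Matrix Filter Fermat.Agent.LT.Loc Fermat.Agent.LT.Glob
open scoped MatrixGroups

variable {k : Type u} {E : Type u'} [Field k] [Field E] [Algebra k E] {ι : Type i'}

/-- `GL₂(k) → GL₂(E)` -/
noncomputable abbrev bcE : GL (Fin 2) k →* GL (Fin 2) E := GeneralLinearGroup.map (algebraMap k E)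

/-- transport of the base points along equalities of the levels -/
theorem exists_based {K L : Type w} [CommRing K] [CommRing L] {i : K →+* L} {σ : L →+* L}
    {O' : Subring L} {O : Subring K} {U : Subgroup PGL(2, L)} {V : Subgroup PGL(2, K)}
    (hPO : ∀ k ∈ PO O', ProjGenLinGroup.map σ k ∈ PO O')
    (hM : IsMatchU.{w, t} i σ hPO (BiInv.ind (PO O')) (BiInv.ind (PO O)))
    (hU : ∀ k ∈ U, ProjGenLinGroup.map σ k ∈ U) {F : BiInv U} {f : BiInv V}
    (eU : U = PO O') (eV : V = PO O) (eF : F = BiInv.ind U) (ef : f = BiInv.ind V)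
    {T : Type t} [Group T] (j : T →* GL (Fin 2) K) (γ : GL (Fin 2) K) (X : GL (Fin 2) L)
    (hd : (γ : Matrix (Fin 2) (Fin 2) K).trace ^ 2 - 4 * (γ : Matrix (Fin 2) (Fin 2) K).det ≠ 0)
    (hX : X * GeneralLinearGroup.map σ X *
      GeneralLinearGroup.map σ (GeneralLinearGroup.map σ X) = GeneralLinearGroup.map i γ)
    (hT : ∀ t, j t * γ = γ * j t) (hXO : X ∈ GLO O') (hγO : γ ∈ GLO O)
    (hr : ∃ r ∈ O, r * ((γ : Matrix (Fin 2) (Fin 2) K).trace ^ 2 -
      4 * (γ : Matrix (Fin 2) (Fin 2) K).det) = 1) :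
    ∃ C : @LocalCorr.{w} T _ (PGL(2, L) ⧸ U) (PGL(2, K) ⧸ V) (actVia (jL i j) U)
      (actVia (jK j) V) (F.tw (ProjGenLinGroup.map σ) hU (ProjGenLinGroup.mk X))
      (f.tw (MonoidHom.id _) (fun _ h => h) (ProjGenLinGroup.mk γ)),
      @LocalCorr.NC T _ _ _ (actVia (jL i j) U) (actVia (jK j) V) _ _ C ∧
      @LocalCorr.Based T _ _ _ (actVia (jL i j) U) (actVia (jK j) V) _ _ C
        ((1 : PGL(2, L)) : PGL(2, L) ⧸ U) ((1 : PGL(2, K)) : PGL(2, K) ⧸ V) := by
  subst eU eV eF ef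
  exact hM.based j γ X hd hX hT hXO hγO hr

section

variable {Lk : LocFam.{w} k ι} {LE : LocFam.{w} E ι} {Uk : Lk.Level} {UE : LE.Level}

theorem isRProd_D {F : Type*} [Field F] {L : LocFam.{w} F ι} (U : L.Level) :
    IsRProd (D := LocFam.D U) (Y := fun v => LocFam.X U v) Subtype.val
      (fun v => LocFam.X.base U v) where
  inj := Subtype.val_injective
  ev d := d.2
  surj x hx := ⟨⟨x, hx⟩, rfl⟩

/-- **The global correspondence.** -/
theorem exists_corr (hnt : ∀ v, Nontrivial (Lk.R v)) (A : LocFam.Auto LE) (hP : A.Pres UE) (i : ∀ v, Lk.R v →+* LE.R v)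
    (i_loc : ∀ v a, i v (Lk.loc v a) = LE.loc v (algebraMap k E a))
    (F : ∀ v, BiInv (UE.U v)) (f : ∀ v, BiInv (Uk.U v))
    (hM : ∀ v, IsMatch.{w, t} (i v) (A.s v : LE.R v →+* LE.R v) (hP v) (F v) (f v))
    (hMU : ∀ᶠ v in cofinite, IsMatchU.{w, t} (i v) (A.s v : LE.R v →+* LE.R v)
      (fun _ h => A.map_mem_PO h) (BiInv.ind (PO (LE.O v))) (BiInv.ind (PO (Lk.O v))))
    (hF : ∀ᶠ v in cofinite, F v = BiInv.ind (UE.U v))
    (hf : ∀ᶠ v in cofinite, f v = BiInv.ind (Uk.U v))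
    {T : Type t} [Group T] (j : T →* GL (Fin 2) k) (γ : GL (Fin 2) k) (X : GL (Fin 2) E)
    (hd : (γ : Matrix (Fin 2) (Fin 2) k).trace ^ 2 - 4 * (γ : Matrix (Fin 2) (Fin 2) k).det ≠ 0)
    (hX : X * GeneralLinearGroup.map (A.θ : E →+* E) X *
      GeneralLinearGroup.map (A.θ : E →+* E) (GeneralLinearGroup.map (A.θ : E →+* E) X) = bcE (E := E) γ)
    (hT : ∀ t, j t * γ = γ * j t) :
    ∃ C : @LocalCorr.{max i' w} T _ (LocFam.D UE) (LocFam.D Uk)
      (MulAction.compHom (LocFam.D UE) ((bcE (E := E)).comp j)) (MulAction.compHom (LocFam.D Uk) j)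
      (fun y => ∏ᶠ v, (F v).tw (A.g v) (hP v) (LE.emb v X) (y v))
      (fun x => ∏ᶠ v, (f v).tw (MonoidHom.id _) (fun _ h => h) (Lk.emb v γ) (x v)),
      @LocalCorr.NC T _ _ _ (MulAction.compHom (LocFam.D UE) ((bcE (E := E)).comp j))
        (MulAction.compHom (LocFam.D Uk) j) _ _ C := by
  classical
  let jv : ∀ v, T →* GL (Fin 2) (Lk.R v) := fun v => (GeneralLinearGroup.map (Lk.loc v)).comp j
  -- the local hypotheses
  have hdv : ∀ v, ((GeneralLinearGroup.map (Lk.loc v) γ : GL (Fin 2) (Lk.R v)) :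
      Matrix (Fin 2) (Fin 2) (Lk.R v)).trace ^ 2 - 4 * ((GeneralLinearGroup.map (Lk.loc v) γ :
      GL (Fin 2) (Lk.R v)) : Matrix (Fin 2) (Fin 2) (Lk.R v)).det =
      Lk.loc v ((γ : Matrix (Fin 2) (Fin 2) k).trace ^ 2 -
        4 * (γ : Matrix (Fin 2) (Fin 2) k).det) := by
    intro v
    have e1 : ((GeneralLinearGroup.map (Lk.loc v) γ : GL (Fin 2) (Lk.R v)) :
      Matrix (Fin 2) (Fin 2) (Lk.R v)) = (γ : Matrix (Fin 2) (Fin 2) k).map (Lk.loc v) := rfl
    have e2 : ((γ : Matrix (Fin 2) (Fin 2) k).map (Lk.loc v)).trace =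
        Lk.loc v (γ : Matrix (Fin 2) (Fin 2) k).trace := by
      rw [Matrix.trace_fin_two, Matrix.trace_fin_two, map_add]; rfl
    have e3 : ((γ : Matrix (Fin 2) (Fin 2) k).map (Lk.loc v)).det =
        Lk.loc v (γ : Matrix (Fin 2) (Fin 2) k).det := (RingHom.map_det (Lk.loc v) _).symm
    rw [e1, e2, e3, map_sub, map_pow, map_mul, map_ofNat]
  have hdv' : ∀ v, ((GeneralLinearGroup.map (Lk.loc v) γ : GL (Fin 2) (Lk.R v)) :
      Matrix (Fin 2) (Fin 2) (Lk.R v)).trace ^ 2 - 4 * ((GeneralLinearGroup.map (Lk.loc v) γ :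
      GL (Fin 2) (Lk.R v)) : Matrix (Fin 2) (Fin 2) (Lk.R v)).det ≠ 0 := by
    intro v
    have := hnt v
    rw [hdv]
    exact (map_ne_zero (Lk.loc v)).2 hd
  have hXv : ∀ v, GeneralLinearGroup.map (LE.loc v) X *
      GeneralLinearGroup.map (A.s v : LE.R v →+* LE.R v) (GeneralLinearGroup.map (LE.loc v) X) *
      GeneralLinearGroup.map (A.s v : LE.R v →+* LE.R v)
        (GeneralLinearGroup.map (A.s v : LE.R v →+* LE.R v)
          (GeneralLinearGroup.map (LE.loc v) X)) =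
      GeneralLinearGroup.map (i v) (GeneralLinearGroup.map (Lk.loc v) γ) := by
    intro v
    have e1 : ∀ g : GL (Fin 2) E, GeneralLinearGroup.map (A.s v : LE.R v →+* LE.R v)
        (GeneralLinearGroup.map (LE.loc v) g) =
        GeneralLinearGroup.map (LE.loc v) (GeneralLinearGroup.map (A.θ : E →+* E) g) := by
      intro g
      ext a b
      exact A.s_loc v (g a b)
    have e2 : GeneralLinearGroup.map (i v) (GeneralLinearGroup.map (Lk.loc v) γ) =
        GeneralLinearGroup.map (LE.loc v) (bcE (E := E) γ) := by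
      ext a b
      exact i_loc v (γ a b)
    rw [e1, e1, e2, ← hX, map_mul, map_mul]
  have hTv : ∀ v t, jv v t * GeneralLinearGroup.map (Lk.loc v) γ =
      GeneralLinearGroup.map (Lk.loc v) γ * jv v t := by
    intro v t
    change GeneralLinearGroup.map (Lk.loc v) (j t) * _ = _ *
      GeneralLinearGroup.map (Lk.loc v) (j t)
    rw [← map_mul, ← map_mul, hT]
  -- the good places
  obtain ⟨r, hr⟩ : ∃ r : k, r * ((γ : Matrix (Fin 2) (Fin 2) k).trace ^ 2 -
      4 * (γ : Matrix (Fin 2) (Fin 2) k).det) = 1 := ⟨_, inv_mul_cancel₀ hd⟩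
  have hgood : ∀ᶠ v in cofinite, ∃ C : @LocalCorr.{w} T _ (PGL(2, LE.R v) ⧸ UE.U v)
      (PGL(2, Lk.R v) ⧸ Uk.U v) (actVia (jL (i v) (jv v)) (UE.U v))
      (actVia (jK (jv v)) (Uk.U v)) ((F v).tw (A.g v) (hP v) (LE.emb v X))
      ((f v).tw (MonoidHom.id _) (fun _ h => h) (Lk.emb v γ)),
      @LocalCorr.NC T _ _ _ (actVia (jL (i v) (jv v)) (UE.U v))
        (actVia (jK (jv v)) (Uk.U v)) _ _ C ∧
      @LocalCorr.Based T _ _ _ (actVia (jL (i v) (jv v)) (UE.U v))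
        (actVia (jK (jv v)) (Uk.U v)) _ _ C (LocFam.X.base UE v) (LocFam.X.base Uk v) := by
    filter_upwards [hMU, hF, hf, UE.eventually_eq, Uk.eventually_eq, LE.eventually_map_mem X,
      Lk.eventually_map_mem γ, Lk.eventually_mem r] with v h1 h2 h3 h4 h5 h6 h7 h8
    exact exists_based (fun _ h => A.map_mem_PO h) h1 (hP v) h4 h5 h2 h3 (jv v)
      (GeneralLinearGroup.map (Lk.loc v) γ) (GeneralLinearGroup.map (LE.loc v) X) (hdv' v) (hXv v)
      (hTv v) h6 h7 ⟨Lk.loc v r, h8, by rw [hdv, ← map_mul, hr, map_one]⟩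
  have hall : ∀ v, ∃ C : @LocalCorr.{w} T _ (PGL(2, LE.R v) ⧸ UE.U v)
      (PGL(2, Lk.R v) ⧸ Uk.U v) (actVia (jL (i v) (jv v)) (UE.U v))
      (actVia (jK (jv v)) (Uk.U v)) ((F v).tw (A.g v) (hP v) (LE.emb v X))
      ((f v).tw (MonoidHom.id _) (fun _ h => h) (Lk.emb v γ)),
      @LocalCorr.NC T _ _ _ (actVia (jL (i v) (jv v)) (UE.U v))
        (actVia (jK (jv v)) (Uk.U v)) _ _ C ∧
      ((∃ C' : @LocalCorr.{w} T _ (PGL(2, LE.R v) ⧸ UE.U v)
      (PGL(2, Lk.R v) ⧸ Uk.U v) (actVia (jL (i v) (jv v)) (UE.U v))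
      (actVia (jK (jv v)) (Uk.U v)) ((F v).tw (A.g v) (hP v) (LE.emb v X))
      ((f v).tw (MonoidHom.id _) (fun _ h => h) (Lk.emb v γ)),
      @LocalCorr.NC T _ _ _ (actVia (jL (i v) (jv v)) (UE.U v))
        (actVia (jK (jv v)) (Uk.U v)) _ _ C' ∧
      @LocalCorr.Based T _ _ _ (actVia (jL (i v) (jv v)) (UE.U v))
        (actVia (jK (jv v)) (Uk.U v)) _ _ C' (LocFam.X.base UE v) (LocFam.X.base Uk v)) →
      @LocalCorr.Based T _ _ _ (actVia (jL (i v) (jv v)) (UE.U v))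
        (actVia (jK (jv v)) (Uk.U v)) _ _ C (LocFam.X.base UE v) (LocFam.X.base Uk v)) := by
    intro v
    by_cases h : ∃ C' : @LocalCorr.{w} T _ (PGL(2, LE.R v) ⧸ UE.U v)
      (PGL(2, Lk.R v) ⧸ Uk.U v) (actVia (jL (i v) (jv v)) (UE.U v))
      (actVia (jK (jv v)) (Uk.U v)) ((F v).tw (A.g v) (hP v) (LE.emb v X))
      ((f v).tw (MonoidHom.id _) (fun _ h => h) (Lk.emb v γ)),
      @LocalCorr.NC T _ _ _ (actVia (jL (i v) (jv v)) (UE.U v))
        (actVia (jK (jv v)) (Uk.U v)) _ _ C' ∧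
      @LocalCorr.Based T _ _ _ (actVia (jL (i v) (jv v)) (UE.U v))
        (actVia (jK (jv v)) (Uk.U v)) _ _ C' (LocFam.X.base UE v) (LocFam.X.base Uk v)
    · obtain ⟨C, h1, h2⟩ := h
      exact ⟨C, h1, fun _ => h2⟩
    · obtain ⟨C, h1⟩ := (hM v).corr (jv v) (GeneralLinearGroup.map (Lk.loc v) γ)
        (GeneralLinearGroup.map (LE.loc v) X) (hdv' v) (hXv v) (hTv v)
      exact ⟨C, h1, fun h' => absurd h' h⟩
  choose C hC1 hC2 using hall
  have hC3 := hgood.mono fun v hv => hC2 v hv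
  let aE : ∀ v, MulAction T (LocFam.X UE v) := fun v => actVia (jL (i v) (jv v)) (UE.U v)
  let ak : ∀ v, MulAction T (LocFam.X Uk v) := fun v => actVia (jK (jv v)) (Uk.U v)
  let bE : MulAction T (LocFam.D UE) := MulAction.compHom (LocFam.D UE) ((bcE (E := E)).comp j)
  let bk : MulAction T (LocFam.D Uk) := MulAction.compHom (LocFam.D Uk) j
  have hactE : ∀ (t : T) (x : LocFam.D UE) (v : ι), (t • x).1 v = t • x.1 v := by
    intro t x v
    change LE.emb v (bcE (j t)) • x v = jL (i v) (jv v) t • x v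
    have : LE.emb v (bcE (j t)) = jL (i v) (jv v) t := by
      change ProjGenLinGroup.mk (GeneralLinearGroup.map (LE.loc v) (bcE (E := E) (j t))) =
        ProjGenLinGroup.mk (GeneralLinearGroup.map (i v) (GeneralLinearGroup.map (Lk.loc v) (j t)))
      congr 1
      ext a b
      exact (i_loc v (j t a b)).symm
    rw [this]
  have hactk : ∀ (t : T) (x : LocFam.D Uk) (v : ι), (t • x).1 v = t • x.1 v :=
    fun t x v => rfl
  obtain ⟨C', hC'⟩ := prod_corr (isRProd_D UE) (isRProd_D Uk) hactE hactk C hC3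
  exact ⟨C', hC' hC1⟩

end

end Fermat.Agent.LT.Mp
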