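import Fermat.Agent.LT.Mp.Corr

/-!
# Matched pairs at the finite places: the context and the symbols
-/

set_option autoImplicit false

universe w u u' i'

namespace Fermat.Agent.LT.Mp

open Matrix Filter Fermat.Agent.LT.Loc Fermat.Agent.LT.Glob
open scoped MatrixGroups

/-- a commutative set of bi-invariant functions, closed under convolution -/
structure ConvSet {H : Type u} [Group H] (K : Subgroup H) where
  carrier : Set (BiInv K)
  unit_mem : BiInv.unit K ∈ carrier
  conv_mem : ∀ F ∈ carrier, ∀ F' ∈ carrier, F.conv F' ∈ carrier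
  comm : ∀ F ∈ carrier, ∀ F' ∈ carrier, F.conv F' = F'.conv F
  fin : ∀ F ∈ carrier, F.Fin

/-- the trivial commutative set -/
noncomputable def ConvSet.triv {H : Type u} [Group H] (K : Subgroup H) : ConvSet K where
  carrier := {BiInv.unit K}
  unit_mem := rfl
  conv_mem F hF F' hF' := by
    rw [Set.mem_singleton_iff] at hF hF' ⊢
    rw [hF, hF', BiInv.unit_conv]
  comm F hF F' hF' := by
    rw [Set.mem_singleton_iff] at hF hF'
    rw [hF, hF']
  fin F hF := by
    rw [Set.mem_singleton_iff] at hF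
    rw [hF]
    exact BiInv.unit_fin

/-- The context: two families of local rings, levels, the places where the functions vary, and the
fixed matched pairs at the other places. -/
structure Ctx (k : Type u) (E : Type u') [Field k] [Field E] [Algebra k E] (ι : Type i') where
  Lk : LocFam.{w} k ι
  LE : LocFam.{w} E ι
  A : LocFam.Auto LE
  i : ∀ v, Lk.R v →+* LE.R v
  i_loc : ∀ v a, i v (Lk.loc v a) = LE.loc v (algebraMap k E a)
  isField : ∀ v, IsField (Lk.R v)
  Uk : Lk.Level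
  UE : LE.Level
  pres : A.Pres UE
  /-- the varying places -/
  spl : Set ι
  π : ∀ v ∈ spl, LE.R v →+* Lk.R v
  split : ∀ v (hv : v ∈ spl), SplitRing (A.s v) (i v) (π v hv)
  prod : ∀ v (hv : v ∈ spl), IsProd3 (ProjGenLinGroup.map (n := Fin 2) (A.s v : LE.R v →+* LE.R v))
    (ProjGenLinGroup.map (n := Fin 2) (π v hv)) (UE.U v) (Uk.U v)
  /-- the commutative algebras at the varying places -/
  alg : ∀ v, ConvSet (Uk.U v)
  /-- the fixed functions at the other places -/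
  F₀ : ∀ v, BiInv (UE.U v)
  f₀ : ∀ v, BiInv (Uk.U v)
  finF : ∀ v, (F₀ v).Fin
  finf : ∀ v, (f₀ v).Fin
  match₀ : ∀ v, v ∉ spl → IsMatch.{w, u} (i v) (A.s v : LE.R v →+* LE.R v) (pres v) (F₀ v) (f₀ v)
  unitF : ∀ᶠ v in cofinite, F₀ v = BiInv.unit (UE.U v)
  unitf : ∀ᶠ v in cofinite, f₀ v = BiInv.unit (Uk.U v)
  matchU : ∀ᶠ v in cofinite, IsMatchU.{w, u} (i v) (A.s v : LE.R v →+* LE.R v)
    (fun _ h => A.map_mem_PO h) (BiInv.ind (PO (LE.O v))) (BiInv.ind (PO (Lk.O v)))

variable {k : Type u} {E : Type u'} [Field k] [Field E] [Algebra k E] {ι : Type i'}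
  (X : Ctx.{w} k E ι)

namespace Ctx

/-- the symbols -/
@[ext] structure Sym where
  G : ∀ v, Fin 3 → BiInv (X.Uk.U v)
  mem : ∀ v j, G v j ∈ (X.alg v).carrier
  off : ∀ v, v ∉ X.spl → ∀ j, G v j = BiInv.unit (X.Uk.U v)
  unit : ∀ᶠ v in cofinite, ∀ j, G v j = BiInv.unit (X.Uk.U v)

namespace Sym

variable {X}

theorem fin (G : X.Sym) (v : ι) (j : Fin 3) : (G.G v j).Fin := (X.alg v).fin _ (G.mem v j)

noncomputable instance : One X.Sym where
  one := ⟨fun v _ => BiInv.unit _, fun v _ => (X.alg v).unit_mem, fun _ _ _ => rfl,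
    Eventually.of_forall fun _ _ => rfl⟩

noncomputable instance : Mul X.Sym where
  mul G G' := ⟨fun v j => (G.G v j).conv (G'.G v j),
    fun v j => (X.alg v).conv_mem _ (G.mem v j) _ (G'.mem v j),
    fun v hv j => by rw [G.off v hv, G'.off v hv, BiInv.unit_conv], by
      filter_upwards [G.unit, G'.unit] with v h h' j
      rw [h, h', BiInv.unit_conv]⟩

theorem one_G (v : ι) (j : Fin 3) : (1 : X.Sym).G v j = BiInv.unit _ := rfl

theorem mul_G (G G' : X.Sym) (v : ι) (j : Fin 3) :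
    (G * G').G v j = (G.G v j).conv (G'.G v j) := rfl

theorem comm_G (G G' : X.Sym) (v : ι) (j j' : Fin 3) :
    (G.G v j).conv (G'.G v j') = (G'.G v j').conv (G.G v j) :=
  (X.alg v).comm _ (G.mem v j) _ (G'.mem v j')

noncomputable instance : CommMonoid X.Sym where
  mul_assoc a b c := by
    apply Sym.ext
    funext v j
    exact BiInv.conv_assoc (a.fin v j) (b.fin v j) _
  one_mul a := by
    apply Sym.ext
    funext v j
    exact BiInv.unit_conv _
  mul_one a := by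
    apply Sym.ext
    funext v j
    exact BiInv.conv_unit _
  mul_comm a b := by
    apply Sym.ext
    funext v j
    exact comm_G a b v j j

end Sym

variable {X}

/-- the function of a symbol on the `k`-side -/
noncomputable def gk (G : X.Sym) (v : ι) : BiInv (X.Uk.U v) :=
  (G.G v 0).conv ((G.G v 1).conv (G.G v 2))

/-- the function of a symbol on the `E`-side, at a varying place -/
noncomputable def gE (G : X.Sym) (v : ι) (hv : v ∈ X.spl) : BiInv (X.UE.U v) :=
  tens3 (X.prod v hv) (G.G v 0) (G.G v 1) (G.G v 2)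

open Classical in
/-- the multiplier on the `E`-side -/
noncomputable def mE (G : X.Sym) (v : ι) : BiInv (X.UE.U v) :=
  if hv : v ∈ X.spl then gE G v hv else BiInv.unit _

open Classical in
/-- the multiplier on the `k`-side -/
noncomputable def mK (G : X.Sym) (v : ι) : BiInv (X.Uk.U v) :=
  if v ∈ X.spl then gk G v else BiInv.unit _

open Classical in
/-- the matched function on the `E`-side -/
noncomputable def pE (G : X.Sym) (v : ι) : BiInv (X.UE.U v) :=
  if hv : v ∈ X.spl then gE G v hv else X.F₀ v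

open Classical in
/-- the matched function on the `k`-side -/
noncomputable def pK (G : X.Sym) (v : ι) : BiInv (X.Uk.U v) :=
  if v ∈ X.spl then gk G v else X.f₀ v

theorem mE_of_mem (G : X.Sym) {v : ι} (hv : v ∈ X.spl) : mE G v = gE G v hv := dif_pos hv
theorem mE_of_not_mem (G : X.Sym) {v : ι} (hv : v ∉ X.spl) : mE G v = BiInv.unit _ := dif_neg hv
theorem mK_of_mem (G : X.Sym) {v : ι} (hv : v ∈ X.spl) : mK G v = gk G v := if_pos hv
theorem mK_of_not_mem (G : X.Sym) {v : ι} (hv : v ∉ X.spl) : mK G v = BiInv.unit _ := if_neg hv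
theorem pE_of_mem (G : X.Sym) {v : ι} (hv : v ∈ X.spl) : pE G v = gE G v hv := dif_pos hv
theorem pE_of_not_mem (G : X.Sym) {v : ι} (hv : v ∉ X.spl) : pE G v = X.F₀ v := dif_neg hv
theorem pK_of_mem (G : X.Sym) {v : ι} (hv : v ∈ X.spl) : pK G v = gk G v := if_pos hv
theorem pK_of_not_mem (G : X.Sym) {v : ι} (hv : v ∉ X.spl) : pK G v = X.f₀ v := if_neg hv

theorem gk_mul (G G' : X.Sym) (v : ι) : gk (G * G') v = (gk G v).conv (gk G' v) := by
  have f0 := G.fin v 0
  have f1 := G.fin v 1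
  have f2 := G.fin v 2
  have f0' := G'.fin v 0
  have f1' := G'.fin v 1
  have f2' := G'.fin v 2
  change ((G.G v 0).conv (G'.G v 0)).conv (((G.G v 1).conv (G'.G v 1)).conv
    ((G.G v 2).conv (G'.G v 2))) = ((G.G v 0).conv ((G.G v 1).conv (G.G v 2))).conv
      ((G'.G v 0).conv ((G'.G v 1).conv (G'.G v 2)))
  have c1 : (G'.G v 0).conv ((G.G v 1).conv (G.G v 2)) =
      ((G.G v 1).conv (G.G v 2)).conv (G'.G v 0) := by
    rw [← BiInv.conv_assoc f0' f1, Sym.comm_G G' G v 0 1, BiInv.conv_assoc f1 f0',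
      Sym.comm_G G' G v 0 2, ← BiInv.conv_assoc f1 f2]
  have c2 : (G'.G v 1).conv (G.G v 2) = (G.G v 2).conv (G'.G v 1) := Sym.comm_G G' G v 1 2
  calc ((G.G v 0).conv (G'.G v 0)).conv (((G.G v 1).conv (G'.G v 1)).conv
      ((G.G v 2).conv (G'.G v 2)))
      = (G.G v 0).conv ((G'.G v 0).conv ((G.G v 1).conv ((G'.G v 1).conv
        ((G.G v 2).conv (G'.G v 2))))) := by
        rw [BiInv.conv_assoc f0 f0', BiInv.conv_assoc f1 f1']
    _ = (G.G v 0).conv ((G'.G v 0).conv ((G.G v 1).conv ((G.G v 2).conv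
        ((G'.G v 1).conv (G'.G v 2))))) := by
        rw [← BiInv.conv_assoc f1' f2, c2, BiInv.conv_assoc f2 f1']
    _ = (G.G v 0).conv (((G'.G v 0).conv ((G.G v 1).conv (G.G v 2))).conv
        ((G'.G v 1).conv (G'.G v 2))) := by
        rw [BiInv.conv_assoc f0' (f1.conv f2), BiInv.conv_assoc f1 f2]
    _ = _ := by
        rw [c1, BiInv.conv_assoc (f1.conv f2) f0', BiInv.conv_assoc f0 (f1.conv f2)]

theorem gE_mul (G G' : X.Sym) (v : ι) (hv : v ∈ X.spl) :
    gE (G * G') v hv = (gE G v hv).conv (gE G' v hv) :=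
  (tens3_conv (X.split v hv).pgl_split3 (X.prod v hv) (G.fin v 0) (G.fin v 1) (G.fin v 2)
    (G'.G v 0) (G'.G v 1) (G'.G v 2)).symm

theorem mE_mul (G G' : X.Sym) (v : ι) : mE (G * G') v = (mE G v).conv (mE G' v) := by
  by_cases hv : v ∈ X.spl
  · rw [mE_of_mem _ hv, mE_of_mem _ hv, mE_of_mem _ hv, gE_mul]
  · rw [mE_of_not_mem _ hv, mE_of_not_mem _ hv, mE_of_not_mem _ hv, BiInv.unit_conv]

theorem mK_mul (G G' : X.Sym) (v : ι) : mK (G * G') v = (mK G v).conv (mK G' v) := by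
  by_cases hv : v ∈ X.spl
  · rw [mK_of_mem _ hv, mK_of_mem _ hv, mK_of_mem _ hv, gk_mul]
  · rw [mK_of_not_mem _ hv, mK_of_not_mem _ hv, mK_of_not_mem _ hv, BiInv.unit_conv]

theorem pE_mul (G G' : X.Sym) (v : ι) : pE (G * G') v = (mE G v).conv (pE G' v) := by
  by_cases hv : v ∈ X.spl
  · rw [pE_of_mem _ hv, mE_of_mem _ hv, pE_of_mem _ hv, gE_mul]
  · rw [pE_of_not_mem _ hv, mE_of_not_mem _ hv, pE_of_not_mem _ hv, BiInv.unit_conv]

theorem pK_mul (G G' : X.Sym) (v : ι) : pK (G * G') v = (mK G v).conv (pK G' v) := by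
  by_cases hv : v ∈ X.spl
  · rw [pK_of_mem _ hv, mK_of_mem _ hv, pK_of_mem _ hv, gk_mul]
  · rw [pK_of_not_mem _ hv, mK_of_not_mem _ hv, pK_of_not_mem _ hv, BiInv.unit_conv]

theorem pE_mul' (G G' : X.Sym) (v : ι) : pE (G * G') v = (pE G v).conv (mE G' v) := by
  rw [mul_comm]
  by_cases hv : v ∈ X.spl
  · rw [pE_of_mem _ hv, mE_of_mem _ hv, pE_of_mem _ hv, mul_comm, gE_mul]
  · rw [pE_of_not_mem _ hv, mE_of_not_mem _ hv, pE_of_not_mem _ hv, BiInv.conv_unit]

theorem pK_mul' (G G' : X.Sym) (v : ι) : pK (G * G') v = (pK G v).conv (mK G' v) := by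
  rw [mul_comm]
  by_cases hv : v ∈ X.spl
  · rw [pK_of_mem _ hv, mK_of_mem _ hv, pK_of_mem _ hv, mul_comm, gk_mul]
  · rw [pK_of_not_mem _ hv, mK_of_not_mem _ hv, pK_of_not_mem _ hv, BiInv.conv_unit]

theorem gE_of_unit {G : X.Sym} {v : ι} (hv : v ∈ X.spl) (h : ∀ j, G.G v j = BiInv.unit _) :
    gE G v hv = BiInv.unit _ := by
  rw [gE, h, h, h, tens3_unit]

theorem gk_of_unit {G : X.Sym} {v : ι} (h : ∀ j, G.G v j = BiInv.unit _) :
    gk G v = BiInv.unit _ := by
  rw [gk, h, h, h, BiInv.unit_conv, BiInv.unit_conv]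

theorem mE_one (v : ι) : mE (1 : X.Sym) v = BiInv.unit _ := by
  by_cases hv : v ∈ X.spl
  · rw [mE_of_mem _ hv, gE_of_unit hv fun j => rfl]
  · rw [mE_of_not_mem _ hv]

theorem mK_one (v : ι) : mK (1 : X.Sym) v = BiInv.unit _ := by
  by_cases hv : v ∈ X.spl
  · rw [mK_of_mem _ hv, gk_of_unit fun j => rfl]
  · rw [mK_of_not_mem _ hv]

theorem mE_fin (G : X.Sym) (v : ι) : (mE G v).Fin := by
  by_cases hv : v ∈ X.spl
  · rw [mE_of_mem _ hv]
    exact tens3_fin (X.split v hv).pgl_split3 (X.prod v hv) (G.fin v 0) (G.fin v 1) (G.fin v 2)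
  · rw [mE_of_not_mem _ hv]
    exact BiInv.unit_fin

theorem mK_fin (G : X.Sym) (v : ι) : (mK G v).Fin := by
  by_cases hv : v ∈ X.spl
  · rw [mK_of_mem _ hv]
    exact (G.fin v 0).conv ((G.fin v 1).conv (G.fin v 2))
  · rw [mK_of_not_mem _ hv]
    exact BiInv.unit_fin

theorem pE_fin (G : X.Sym) (v : ι) : (pE G v).Fin := by
  by_cases hv : v ∈ X.spl
  · rw [pE_of_mem _ hv]
    exact tens3_fin (X.split v hv).pgl_split3 (X.prod v hv) (G.fin v 0) (G.fin v 1) (G.fin v 2)
  · rw [pE_of_not_mem _ hv]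
    exact X.finF v

theorem pK_fin (G : X.Sym) (v : ι) : (pK G v).Fin := by
  by_cases hv : v ∈ X.spl
  · rw [pK_of_mem _ hv]
    exact (G.fin v 0).conv ((G.fin v 1).conv (G.fin v 2))
  · rw [pK_of_not_mem _ hv]
    exact X.finf v

theorem mE_unit (G : X.Sym) : ∀ᶠ v in cofinite, mE G v = BiInv.unit _ := by
  filter_upwards [G.unit] with v hv
  by_cases h : v ∈ X.spl
  · rw [mE_of_mem _ h, gE_of_unit h hv]
  · rw [mE_of_not_mem _ h]

theorem mK_unit (G : X.Sym) : ∀ᶠ v in cofinite, mK G v = BiInv.unit _ := by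
  filter_upwards [G.unit] with v hv
  by_cases h : v ∈ X.spl
  · rw [mK_of_mem _ h, gk_of_unit hv]
  · rw [mK_of_not_mem _ h]

theorem pE_unit (G : X.Sym) : ∀ᶠ v in cofinite, pE G v = BiInv.unit _ := by
  filter_upwards [G.unit, X.unitF] with v hv h'
  by_cases h : v ∈ X.spl
  · rw [pE_of_mem _ h, gE_of_unit h hv]
  · rw [pE_of_not_mem _ h, h']

theorem pK_unit (G : X.Sym) : ∀ᶠ v in cofinite, pK G v = BiInv.unit _ := by
  filter_upwards [G.unit, X.unitf] with v hv h'
  by_cases h : v ∈ X.spl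
  · rw [pK_of_mem _ h, gk_of_unit hv]
  · rw [pK_of_not_mem _ h, h']

/-- **every symbol gives a matched pair** -/
theorem isMatch (G : X.Sym) (v : ι) :
    IsMatch.{w, u} (X.i v) (X.A.s v : X.LE.R v →+* X.LE.R v) (X.pres v) (pE G v) (pK G v) := by
  by_cases hv : v ∈ X.spl
  · rw [pE_of_mem _ hv, pK_of_mem _ hv]
    exact isMatch_split (X.split v hv) (X.prod v hv) (X.isField v) (G.fin v 0) (G.fin v 1)
  · rw [pE_of_not_mem _ hv, pK_of_not_mem _ hv]
    exact X.match₀ v hv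

/-- **the global correspondence** -/
theorem exists_corr (G : X.Sym) {T : Type u} [Group T] (j : T →* GL (Fin 2) k)
    (γ : GL (Fin 2) k) (x : GL (Fin 2) E)
    (hd : (γ : Matrix (Fin 2) (Fin 2) k).trace ^ 2 - 4 * (γ : Matrix (Fin 2) (Fin 2) k).det ≠ 0)
    (hX : x * GeneralLinearGroup.map (X.A.θ : E →+* E) x *
      GeneralLinearGroup.map (X.A.θ : E →+* E) (GeneralLinearGroup.map (X.A.θ : E →+* E) x) =
      bcE (E := E) γ)
    (hT : ∀ t, j t * γ = γ * j t) :
    ∃ C : @LocalCorr.{max i' w} T _ (LocFam.D X.UE) (LocFam.D X.Uk)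
      (MulAction.compHom (LocFam.D X.UE) ((bcE (E := E)).comp j))
      (MulAction.compHom (LocFam.D X.Uk) j)
      (fun y => ∏ᶠ v, (pE G v).tw (X.A.g v) (X.pres v) (X.LE.emb v x) (y v))
      (fun y => ∏ᶠ v, (pK G v).tw (MonoidHom.id _) (fun _ h => h) (X.Lk.emb v γ) (y v)),
      @LocalCorr.NC T _ _ _ (MulAction.compHom (LocFam.D X.UE) ((bcE (E := E)).comp j))
        (MulAction.compHom (LocFam.D X.Uk) j) _ _ C :=
  Mp.exists_corr (fun v => (X.isField v).nontrivial) X.A X.pres X.i X.i_loc _ _ (isMatch G)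
    X.matchU (by filter_upwards [pE_unit G] with v hv; rw [hv, BiInv.unit_eq_ind])
    (by filter_upwards [pK_unit G] with v hv; rw [hv, BiInv.unit_eq_ind]) j γ x hd hX hT

end Ctx

end Fermat.Agent.LT.Mp
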