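import Fermat.Agent.LT.Mp.Place
import Fermat.Agent.LT.Glob.Good
import Fermat.Agent.LT.Glob.SplitE
import Fermat.Agent.LT.Glob.TkerG
import Fermat.Agent.LT.Unit.Inert
import Fermat.Agent.LT.V0.IwAlg

/-!
# The concrete context
-/

set_option autoImplicit false
set_option linter.unusedVariables false

universe w u u' i'

namespace Fermat.Agent.LT.Mp

open Matrix Filter Fermat.Agent.LT.Loc Fermat.Agent.LT.Glob NumberField
  IsDedekindDomain
open scoped MatrixGroups

section Alg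

variable {R : Type u} [CommRing R] {O : Subring R} {ϖ : Rˣ} {B : Finset R}

/-- a commutative subalgebra of helper9's Hecke algebra gives a `ConvSet` -/
def ConvSet.ofHA {H : Type u} [Group H] {K : Subgroup H} (S : Subalgebra ℂ (V0.HAlg K))
    (hc : ∀ a ∈ S, ∀ b ∈ S, a * b = b * a) : ConvSet K where
  carrier := {F | ∃ a ∈ S, a.bi = F}
  unit_mem := ⟨1, S.one_mem, V0.HAlg.one_bi⟩
  conv_mem := by
    rintro _ ⟨a, ha, rfl⟩ _ ⟨b, hb, rfl⟩
    exact ⟨a * b, S.mul_mem ha hb, V0.HAlg.mul_bi a b⟩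
  comm := by
    rintro _ ⟨a, ha, rfl⟩ _ ⟨b, hb, rfl⟩
    rw [← V0.HAlg.mul_bi, ← V0.HAlg.mul_bi, hc a ha b hb]
  fin := by
    rintro _ ⟨a, ha, rfl⟩
    exact a.fin

theorem adjoin_comm {A : Type*} [Ring A] [Algebra ℂ A] {s : Set A}
    (hs : ∀ x ∈ s, ∀ y ∈ s, x * y = y * x) :
    ∀ a ∈ Algebra.adjoin ℂ s, ∀ b ∈ Algebra.adjoin ℂ s, a * b = b * a := by
  have h := Algebra.isMulCommutative_adjoin ℂ hs
  intro a ha b hb
  exact congrArg Subtype.val (h.is_comm.comm ⟨a, ha⟩ ⟨b, hb⟩)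

/-- the spherical operator as an element of helper9's algebra -/
noncomputable def tH (hu : Unif O ϖ B) : V0.HAlg (PO O) := V0.HAlg.mk (TT O ϖ) hu.fin_TT

theorem tH_f (hu : Unif O ϖ B) (g : PGL(2, R)) : (tH hu).bi.f g = (TT O ϖ).f g := rfl

/-- the spherical algebra -/
noncomputable def algT (hu : Unif O ϖ B) : ConvSet (PO O) :=
  ConvSet.ofHA (Algebra.adjoin ℂ {tH hu}) (adjoin_comm (by simp))

/-- the commutative algebra at Iwahori level -/
noncomputable def algI (hu : Unif O ϖ B) : ConvSet (V0.Iw O ϖ) :=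
  ConvSet.ofHA (Algebra.adjoin ℂ {V0.iwU hu, V0.iwZ hu}) (adjoin_comm (by
    have h := (V0.iwZ_comm_U hu).eq
    intro x hx y hy
    rcases hx with rfl | rfl <;> rcases hy with rfl | rfl
    · rfl
    · exact h.symm
    · exact h
    · rfl))

end Alg

section Conc

variable {k E : Type u} [Field k] [NumberField k] [Field E] [NumberField E] [Algebra k E]
  {σ : E ≃ₐ[k] E}

/-- place data for the concrete families -/
abbrev PDK (σ : E ≃ₐ[k] E) (v : HeightOneSpectrum (𝓞 k)) :=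
  PD.{u, u} (locK (F := k)) (locE k E) (autoE σ) (fun v => strE E v) v

/-- `v` splits in `E` -/
def IsSpl (σ : E ≃ₐ[k] E) (v : HeightOneSpectrum (𝓞 k)) : Prop := ∃ e : RE E v, IsSplitIdem σ e

/-- `v` is unramified in `E` -/
def IsUnr (σ : E ≃ₐ[k] E) (v : HeightOneSpectrum (𝓞 k)) : Prop :=
  ∃ α ∈ OE E v, ∃ β ∈ OE E v, (α - sHom v σ α) * β = 1

variable (h : Gal3 σ)
include h

/-- the first projection at a split place -/
noncomputable def spr {v : HeightOneSpectrum (𝓞 k)} (hs : IsSpl σ v) :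
    RE E v →+* v.adicCompletion k := (hs.choose_spec.pr h : RE E v →+* v.adicCompletion k)

theorem spr_split {v : HeightOneSpectrum (𝓞 k)} (hs : IsSpl σ v) :
    SplitRing (sEquiv v σ) (strE E v) (spr h hs) := hs.choose_spec.splitRing h

theorem spr_prod {v : HeightOneSpectrum (𝓞 k)} (hs : IsSpl σ v) :
    IsProdO (sEquiv v σ) (spr h hs) (OE E v) (Oc v) := hs.choose_spec.isProdO h

/-- data at the good split places -/
noncomputable def gsPD {v : HeightOneSpectrum (𝓞 k)} (hs : IsSpl σ v) : PDK σ v :=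
  PD.gsplit (Lk := locK (F := k)) (LE := locE k E) (A := autoE σ) (i := fun v => strE E v)
    (v := v) (π := spr h hs) (spr_split h hs) (spr_prod h hs) (algT (unifOc_reps v))

open Classical in
/-- data at the good places -/
noncomputable def goodPD {v : HeightOneSpectrum (𝓞 k)} (hα : IsUnr σ v) : PDK σ v :=
  if hs : IsSpl σ v then gsPD h hs
  else PD.inert (Lk := locK (F := k)) (LE := locE k E) (A := autoE σ) (i := fun v => strE E v)
    (v := v) (Unit.isMatchU_inert h ((field_or_split h v).resolve_right hs) hα)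

theorem goodPD_isGood {v : HeightOneSpectrum (𝓞 k)} (hα : IsUnr σ v) : (goodPD h hα).IsGood := by
  unfold goodPD
  split_ifs with hs
  · exact PD.gsplit_isGood _ _ _
  · exact PD.inert_isGood _

theorem goodPD_split {v : HeightOneSpectrum (𝓞 k)} (hα : IsUnr σ v) (hs : IsSpl σ v) :
    goodPD h hα = gsPD h hs := dif_pos hs

omit h in
theorem deep_Iw (v : HeightOneSpectrum (𝓞 k)) :
    ∃ N : ℕ, N ≠ 0 ∧ PK (Oc (K := k) v) N ≤ V0.Iw (Oc (K := k) v) (unif v) := by
  obtain ⟨N, hN, h⟩ := (locK (F := k)).denom v (((unif v)⁻¹ : (v.adicCompletion k)ˣ) :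
    v.adicCompletion k)
  exact ⟨N, hN, V0.PK_le_Iw (by rw [mul_comm]; exact h)⟩

/-- data at the Iwahori place -/
noncomputable def iwPD {v : HeightOneSpectrum (𝓞 k)} (hs : IsSpl σ v) : PDK σ v :=
  PD.psplit (Lk := locK (F := k)) (LE := locE k E) (A := autoE σ) (i := fun v => strE E v)
    (v := v) (π := spr h hs) (spr_split h hs) (spr_prod h hs)
    (V0.Iw (Oc (K := k) v) (unif v)) (V0.Iw_le _ _) (deep_Iw v) (algI (unifOc_reps v))

theorem isMatchU_all : ∀ᶠ v : HeightOneSpectrum (𝓞 k) in cofinite,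
    IsMatchU.{u, u} (strE E v) ((autoE σ).s v : RE E v →+* RE E v)
      (fun _ h => (autoE σ).map_mem_PO h) (BiInv.ind (PO (OE E v)))
      (BiInv.ind (PO (Oc (K := k) v))) := by
  filter_upwards [Unit.eventually_unit h] with v hv
  rcases field_or_split h v with hf | hs
  · exact Unit.isMatchU_inert h hf hv
  · exact isMatchU_split (spr_split h hs) ((spr_split h hs).isProd3_PO (spr_prod h hs))
      (Field.toIsField (v.adicCompletion k))

/-- the data for the context -/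
structure Bad (σ : E ≃ₐ[k] E) where
  /-- the bad places -/
  bad : Finset (HeightOneSpectrum (𝓞 k))
  unr : ∀ v ∉ bad, IsUnr σ v
  /-- the data at the bad places -/
  pd : ∀ v ∈ bad, PDK σ v
  /-- the Iwahori place -/
  v0 : HeightOneSpectrum (𝓞 k)
  v0_bad : v0 ∉ bad
  v0_spl : IsSpl σ v0

variable (b : Bad σ)

open Classical in
/-- the data at all places -/
noncomputable def Bad.P (v : HeightOneSpectrum (𝓞 k)) : PDK σ v :=
  if hb : v ∈ b.bad then b.pd v hb
  else if h0 : v = b.v0 then iwPD h (h0 ▸ b.v0_spl)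
  else goodPD h (b.unr v hb)

theorem Bad.P_bad {v : HeightOneSpectrum (𝓞 k)} (hb : v ∈ b.bad) : b.P h v = b.pd v hb :=
  dif_pos hb

theorem Bad.P_v0 : b.P h b.v0 = iwPD h b.v0_spl := by
  rw [Bad.P, dif_neg b.v0_bad, dif_pos rfl]

theorem Bad.P_good {v : HeightOneSpectrum (𝓞 k)} (hb : v ∉ b.bad) (h0 : v ≠ b.v0) :
    b.P h v = goodPD h (b.unr v hb) := by
  rw [Bad.P, dif_neg hb, dif_neg h0]

theorem Bad.P_isGood {v : HeightOneSpectrum (𝓞 k)} (hb : v ∉ b.bad) (h0 : v ≠ b.v0) :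
    (b.P h v).IsGood := by
  rw [b.P_good h hb h0]
  exact goodPD_isGood h _

/-- **the context** -/
noncomputable def Bad.X : Ctx.{u} k E (HeightOneSpectrum (𝓞 k)) :=
  Ctx.ofPD (locK (F := k)) (locE k E) (autoE σ) (fun v => strE E v) (fun v a => strE_coe a)
    (fun v => (Field.toIsField (v.adicCompletion k))) (b.P h)
    (by
      classical
      have : ((b.bad : Set (HeightOneSpectrum (𝓞 k))) ∪ {b.v0}).Finite :=
        b.bad.finite_toSet.union (Set.finite_singleton _)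
      filter_upwards [this.compl_mem_cofinite] with v hv
      exact b.P_isGood h (fun h => hv (Or.inl h)) fun h => hv (Or.inr h))
    (isMatchU_all h)

section Facts

variable {v : HeightOneSpectrum (𝓞 k)}

theorem Bad.P_gs (hb : v ∉ b.bad) (h0 : v ≠ b.v0) (hs : IsSpl σ v) : b.P h v = gsPD h hs := by
  rw [b.P_good h hb h0, goodPD_split h _ hs]

theorem Bad.mem_spl (hb : v ∉ b.bad) (h0 : v ≠ b.v0) (hs : IsSpl σ v) : v ∈ (b.X h).spl := by
  change (b.P h v).vary
  rw [b.P_gs h hb h0 hs]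
  trivial

theorem Bad.v0_mem_spl : b.v0 ∈ (b.X h).spl := by
  change (b.P h b.v0).vary
  rw [b.P_v0 h]
  trivial

theorem Bad.Uk_good (hb : v ∉ b.bad) (h0 : v ≠ b.v0) :
    (b.X h).Uk.U v = PO ((b.X h).Lk.O v) := (b.P_isGood h hb h0).V

theorem Bad.UE_good (hb : v ∉ b.bad) (h0 : v ≠ b.v0) :
    (b.X h).UE.U v = PO ((b.X h).LE.O v) := (b.P_isGood h hb h0).U

theorem Bad.Uk_v0 : (b.X h).Uk.U b.v0 = V0.Iw (Oc (K := k) b.v0) (unif b.v0) := by
  change (b.P h b.v0).V = _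
  rw [b.P_v0 h]
  rfl

theorem Bad.UE_v0 : (b.X h).UE.U b.v0 =
    prod3 (ProjGenLinGroup.map ((autoE σ).s b.v0 : RE E b.v0 →+* RE E b.v0))
      (ProjGenLinGroup.map (spr h b.v0_spl)) (V0.Iw (Oc (K := k) b.v0) (unif b.v0)) := by
  change (b.P h b.v0).U = _
  rw [b.P_v0 h]
  rfl

theorem Bad.π_good (hb : v ∉ b.bad) (h0 : v ≠ b.v0) (hs : IsSpl σ v) (hv : v ∈ (b.X h).spl) :
    (b.X h).π v hv = spr h hs := by
  have key : ∀ (P : PDK σ v) (hP : P = gsPD h hs) (hv : P.vary), P.π hv = spr h hs := by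
    rintro _ rfl hv
    rfl
  exact key _ (b.P_gs h hb h0 hs) hv

theorem Bad.π_v0 (hv : b.v0 ∈ (b.X h).spl) : (b.X h).π b.v0 hv = spr h b.v0_spl := by
  have key : ∀ (P : PDK σ b.v0) (hP : P = iwPD h b.v0_spl) (hv : P.vary),
      P.π hv = spr h b.v0_spl := by
    rintro _ rfl hv
    rfl
  exact key _ (b.P_v0 h) hv

theorem Bad.alg_good (hb : v ∉ b.bad) (h0 : v ≠ b.v0) (hs : IsSpl σ v)
    {F : V0.HAlg (PO (Oc (K := k) v))} (hF : F ∈ Algebra.adjoin ℂ {tH (unifOc_reps v)})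
    (G : BiInv ((b.X h).Uk.U v)) (hG : ∀ g, G.f g = F.bi.f g) : G ∈ ((b.X h).alg v).carrier := by
  have key : ∀ (P : PDK σ v) (hP : P = gsPD h hs) (G : BiInv P.V) (hG : ∀ g, G.f g = F.bi.f g),
      G ∈ P.alg.carrier := by
    rintro _ rfl G hG
    exact ⟨F, hF, BiInv.ext' fun x => (hG x).symm⟩
  exact key _ (b.P_gs h hb h0 hs) G hG

/-- the Hecke operator belongs to the algebra -/
theorem Bad.TTb_mem (hb : v ∉ b.bad) (h0 : v ≠ b.v0) (hs : IsSpl σ v) :
    LocFam.TTb (L := (b.X h).Lk) (U := (b.X h).Uk) (unif v) (b.Uk_good h hb h0) ∈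
      ((b.X h).alg v).carrier :=
  b.alg_good h hb h0 hs (Algebra.subset_adjoin (Set.mem_singleton _)) _ fun g => rfl

theorem Bad.alg_v0 {F : V0.HAlg (V0.Iw (Oc (K := k) b.v0) (unif b.v0))}
    (hF : F ∈ Algebra.adjoin ℂ {V0.iwU (unifOc_reps b.v0), V0.iwZ (unifOc_reps b.v0)})
    (G : BiInv ((b.X h).Uk.U b.v0)) (hG : ∀ g, G.f g = F.bi.f g) :
    G ∈ ((b.X h).alg b.v0).carrier := by
  have key : ∀ (P : PDK σ b.v0) (hP : P = iwPD h b.v0_spl) (G : BiInv P.V)
      (hG : ∀ g, G.f g = F.bi.f g), G ∈ P.alg.carrier := by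
    rintro _ rfl G hG
    exact ⟨F, hF, BiInv.ext' fun x => (hG x).symm⟩
  exact key _ (b.P_v0 h) G hG

theorem Bad.F₀_bad (hb : v ∈ b.bad) : HEq ((b.X h).F₀ v) (b.pd v hb).F := by
  change HEq (b.P h v).F _
  rw [b.P_bad h hb]

end Facts

end Conc

end Fermat.Agent.LT.Mp
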