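import Fermat.Agent.LT.Mp.Gf
import Fermat.Agent.LT.Mp.Inst
import Fermat.Agent.LT.T3.Term
import Fermat.Agent.LT.Glob.Twist

/-!
# The correspondence at the finite places, in the form needed for the trace comparison
-/

set_option autoImplicit false
set_option linter.unusedVariables false

universe w u u' i'

namespace Fermat.Agent.LT.Mp

open Matrix Filter Fermat.Agent.LT.Loc Fermat.Agent.LT.Glob NumberField
open scoped MatrixGroups

variable {k : Type u} {E : Type u'} [Field k] [NumberField k] [Field E] [NumberField E]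
  [Algebra k E] {ι : Type i'}

/-- **The matched functions of a symbol correspond.** -/
theorem Ctx.finCorr (X : Ctx.{w} k E ι) {σ : E ≃ₐ[k] E} (T : Sp.Twist E (LocFam.D X.UE))
    (hθ : ∀ a, X.A.θ a = σ a) (hT : ∀ x, T.dm x = LocFam.Auto.dmap X.pres x) (G : X.Sym) :
    T3.FinCorr.{max i' w} σ T (Ctx.PE G).toDKer (Ctx.PK G).toDKer := by
  intro γ t hd ht
  have hs : ∀ g : GL (Fin 2) E, GeneralLinearGroup.map (X.A.θ : E →+* E) g = Tw.sg σ g := by
    intro g
    ext i j
    exact hθ (g i j)
  obtain ⟨C, hC⟩ := Ctx.exists_corr_ker G (T := Subgroup.centralizer ({γ} : Set (GL (Fin 2) k)))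
    (Subgroup.subtype _) γ t hd (by rw [hs, hs]; exact ht) (by
      rintro ⟨y, hy⟩
      exact (Subgroup.mem_centralizer_iff.1 hy γ rfl).symm)
  letI a1 : MulAction (Subgroup.centralizer ({γ} : Set (GL (Fin 2) k))) (LocFam.D X.UE) :=
    MulAction.compHom (LocFam.D X.UE)
      ((bcE (k := k) (E := E)).comp (Subgroup.centralizer {γ}).subtype)
  letI a2 : MulAction (Subgroup.centralizer ({γ} : Set (GL (Fin 2) k))) (LocFam.D X.Uk) :=
    MulAction.compHom (LocFam.D X.Uk) (Subgroup.centralizer {γ}).subtype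
  refine ⟨C.Z, C.p, C.q, C.w, fun y hy => ?_, C.fin_p, C.fin_q, fun y => ?_, C.sum_q,
    fun y => ?_⟩
  · have hm : y ∈ Subgroup.centralizer ({γ} : Set (GL (Fin 2) k)) := by
      rw [Subgroup.mem_centralizer_iff]
      intro h hh
      rw [Set.mem_singleton_iff] at hh
      rw [hh]
      exact hy.symm
    exact ⟨@MulAction.toPerm _ _ _ C.act (⟨y, hm⟩ : Subgroup.centralizer ({γ} : Set (GL (Fin 2) k))),
      fun z => C.p_smul _ z, fun z => C.q_smul _ z, fun z => C.w_smul _ z⟩
  · rw [hT]
    exact C.sum_p y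
  · rw [hT]
    exact hC y

section Conc

variable {k E : Type u} [Field k] [NumberField k] [Field E] [NumberField E] [Algebra k E]
  {σ : E ≃ₐ[k] E} (h : Gal3 σ) (b : Bad σ)

/-- the matched functions correspond, for the concrete context -/
theorem Bad.finCorr (hc : (autoE σ).IsCubic) (G : (b.X h).Sym) :
    T3.FinCorr.{u} σ (LocFam.Auto.twist hc (b.X h).pres) (Ctx.PE G).toDKer (Ctx.PK G).toDKer :=
  Ctx.finCorr (b.X h) _ (fun a => rfl) (fun x => rfl) G

end Conc

end Fermat.Agent.LT.Mp
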