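import Fermat.Agent.LT.V0.HAlg
import Fermat.Agent.LT.Glob.Ker

set_option autoImplicit false

/-!
# The two models of the Hecke algebra
-/

namespace Fermat.Agent.LT.Mp

open Fermat.Agent.LT.Loc Fermat.Agent.LT.Glob Fermat.Agent.LT.V0

universe u

section

variable {H : Type u} [Group H] {K : Subgroup H}

/-- `HAlg K` and `Hk K` are the same algebra -/
noncomputable def toHk : HAlg K ≃ₐ[ℂ] Hk K where
  toFun F := Hk.ofBi F.bi F.fin
  invFun F := HAlg.mk F.toBiInv F.fin
  left_inv F := HAlg.ext fun x => rfl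
  right_inv F := Hk.toBiInv_injective rfl
  map_mul' F G := (Hk.ofBi_mul F.bi G.bi F.fin G.fin).symm
  map_add' F G := Hk.ext_f fun g => by
    rw [Hk.add_f]
    rfl
  commutes' c := Hk.ext_f fun g => by
    rw [Algebra.algebraMap_eq_smul_one, Algebra.algebraMap_eq_smul_one, Hk.csmul_f,
      ← Hk.ofBi_unit]
    rfl

theorem toHk_toBiInv (F : HAlg K) : (toHk F).toBiInv = F.bi := rfl

theorem toHk_f (F : HAlg K) (x : H) : (toHk F).f x = F.bi.f x := rfl

theorem toHk_symm_bi (F : Hk K) : (toHk.symm F).bi = F.toBiInv := rfl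

theorem toHk_ker (F : HAlg K) (x y : H) : (toHk F).ker (x : H ⧸ K) (y : H ⧸ K) = F.bi.f (x⁻¹ * y) :=
  rfl

end

end Fermat.Agent.LT.Mp
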