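import Fermat.Agent.LT.Mp.Gf

/-!
# Place data, and the context assembled from them
-/

set_option autoImplicit false
set_option linter.unusedVariables false

universe w u u' i'

namespace Fermat.Agent.LT.Mp

open Matrix Filter Fermat.Agent.LT.Loc Fermat.Agent.LT.Glob
open scoped MatrixGroups

/-- the subgroup `V × V × V` -/
def prod3 {G H : Type*} [Group G] [Group H] (σ : G →* G) (π : G →* H) (V : Subgroup H) :
    Subgroup G :=
  V.comap π ⊓ V.comap (π.comp σ) ⊓ V.comap (π.comp (σ.comp σ))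

theorem isProd3_prod3 {G H : Type w} [Group G] [Group H] (σ : G →* G) (π : G →* H)
    (V : Subgroup H) : IsProd3 σ π (prod3 σ π V) V := fun _ =>
  ⟨fun h => ⟨h.1.1, h.1.2, h.2⟩, fun h => ⟨⟨h.1, h.2.1⟩, h.2.2⟩⟩

section Data

variable {k : Type u} {E : Type u'} [Field k] [Field E] {ι : Type i'}

/-- all the data at one place -/
structure PD (Lk : LocFam.{w} k ι) (LE : LocFam.{w} E ι) (A : LocFam.Auto LE)
    (i : ∀ v, Lk.R v →+* LE.R v) (v : ι) where
  U : Subgroup PGL(2, LE.R v)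
  V : Subgroup PGL(2, Lk.R v)
  leU : U ≤ PO (LE.O v)
  leV : V ≤ PO (Lk.O v)
  deepU : ∃ N : ℕ, N ≠ 0 ∧ PK (LE.O v) N ≤ U
  deepV : ∃ N : ℕ, N ≠ 0 ∧ PK (Lk.O v) N ≤ V
  pres : ∀ g ∈ U, ProjGenLinGroup.map (A.s v : LE.R v →+* LE.R v) g ∈ U
  vary : Prop
  π : vary → (LE.R v →+* Lk.R v)
  split : ∀ h : vary, SplitRing (A.s v) (i v) (π h)
  prod : ∀ h : vary, IsProd3 (ProjGenLinGroup.map (n := Fin 2) (A.s v : LE.R v →+* LE.R v))
    (ProjGenLinGroup.map (n := Fin 2) (π h)) U V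
  alg : ConvSet V
  F : BiInv U
  f : BiInv V
  finF : F.Fin
  finf : f.Fin
  match₀ : ¬ vary → IsMatch.{w, u} (i v) (A.s v : LE.R v →+* LE.R v) pres F f

variable {Lk : LocFam.{w} k ι} {LE : LocFam.{w} E ι} {A : LocFam.Auto LE}
  {i : ∀ v, Lk.R v →+* LE.R v} {v : ι}

/-- hyperspecial data -/
structure PD.IsGood (P : PD.{w, u} Lk LE A i v) : Prop where
  U : P.U = PO (LE.O v)
  V : P.V = PO (Lk.O v)
  F : P.F = BiInv.unit P.U
  f : P.f = BiInv.unit P.V

namespace PD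

/-- a nonsplit place with a matched pair; also used at the bad split places -/
noncomputable def fixed (U : Subgroup PGL(2, LE.R v)) (V : Subgroup PGL(2, Lk.R v))
    (leU : U ≤ PO (LE.O v)) (leV : V ≤ PO (Lk.O v))
    (deepU : ∃ N : ℕ, N ≠ 0 ∧ PK (LE.O v) N ≤ U) (deepV : ∃ N : ℕ, N ≠ 0 ∧ PK (Lk.O v) N ≤ V)
    (pres : ∀ g ∈ U, ProjGenLinGroup.map (A.s v : LE.R v →+* LE.R v) g ∈ U)
    (F : BiInv U) (f : BiInv V) (finF : F.Fin) (finf : f.Fin)
    (h : IsMatch.{w, u} (i v) (A.s v : LE.R v →+* LE.R v) pres F f) : PD.{w, u} Lk LE A i v where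
  U := U
  V := V
  leU := leU
  leV := leV
  deepU := deepU
  deepV := deepV
  pres := pres
  vary := False
  π := False.elim
  split h := h.elim
  prod h := h.elim
  alg := ConvSet.triv V
  F := F
  f := f
  finF := finF
  finf := finf
  match₀ _ := h

/-- a good nonsplit place -/
noncomputable def inert (h : IsMatchU.{w, u} (i v) (A.s v : LE.R v →+* LE.R v)
    (fun _ h => A.map_mem_PO h) (BiInv.ind (PO (LE.O v))) (BiInv.ind (PO (Lk.O v)))) :
    PD.{w, u} Lk LE A i v :=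
  fixed (PO (LE.O v)) (PO (Lk.O v)) le_rfl le_rfl ⟨1, one_ne_zero, (PK_one _).le⟩
    ⟨1, one_ne_zero, (PK_one _).le⟩ (fun _ h => A.map_mem_PO h) (BiInv.ind _) (BiInv.ind _)
    (by rw [← BiInv.unit_eq_ind]; exact BiInv.unit_fin)
    (by rw [← BiInv.unit_eq_ind]; exact BiInv.unit_fin) h.toIsMatch

theorem inert_isGood (h : IsMatchU.{w, u} (i v) (A.s v : LE.R v →+* LE.R v)
    (fun _ h => A.map_mem_PO h) (BiInv.ind (PO (LE.O v))) (BiInv.ind (PO (Lk.O v)))) :
    (inert h).IsGood := ⟨rfl, rfl, (BiInv.unit_eq_ind _).symm, (BiInv.unit_eq_ind _).symm⟩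

section Split

variable {π : LE.R v →+* Lk.R v} (S : SplitRing (A.s v) (i v) π)

/-- a split place where the functions vary -/
noncomputable def vsplit (U : Subgroup PGL(2, LE.R v)) (V : Subgroup PGL(2, Lk.R v))
    (hUV : IsProd3 (ProjGenLinGroup.map (n := Fin 2) (A.s v : LE.R v →+* LE.R v))
      (ProjGenLinGroup.map (n := Fin 2) π) U V)
    (leU : U ≤ PO (LE.O v)) (leV : V ≤ PO (Lk.O v))
    (deepU : ∃ N : ℕ, N ≠ 0 ∧ PK (LE.O v) N ≤ U) (deepV : ∃ N : ℕ, N ≠ 0 ∧ PK (Lk.O v) N ≤ V)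
    (alg : ConvSet V) : PD.{w, u} Lk LE A i v where
  U := U
  V := V
  leU := leU
  leV := leV
  deepU := deepU
  deepV := deepV
  pres := hUV.stable S.pgl_split3
  vary := True
  π _ := π
  split _ := S
  prod _ := hUV
  alg := alg
  F := BiInv.unit U
  f := BiInv.unit V
  finF := BiInv.unit_fin
  finf := BiInv.unit_fin
  match₀ h := absurd trivial h

/-- a good split place -/
noncomputable def gsplit (hO : IsProdO (A.s v) π (LE.O v) (Lk.O v))
    (alg : ConvSet (PO (Lk.O v))) : PD.{w, u} Lk LE A i v :=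
  vsplit S (PO (LE.O v)) (PO (Lk.O v)) (S.isProd3_PO hO) le_rfl le_rfl
    ⟨1, one_ne_zero, (PK_one _).le⟩ ⟨1, one_ne_zero, (PK_one _).le⟩ alg

theorem gsplit_isGood (hO : IsProdO (A.s v) π (LE.O v) (Lk.O v)) (alg : ConvSet (PO (Lk.O v))) :
    (gsplit S hO alg).IsGood := ⟨rfl, rfl, rfl, rfl⟩

/-- a split place with product level, e.g. Iwahori level -/
noncomputable def psplit (hO : IsProdO (A.s v) π (LE.O v) (Lk.O v)) (V : Subgroup PGL(2, Lk.R v))
    (leV : V ≤ PO (Lk.O v)) (deepV : ∃ N : ℕ, N ≠ 0 ∧ PK (Lk.O v) N ≤ V) (alg : ConvSet V) :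
    PD.{w, u} Lk LE A i v :=
  vsplit S (prod3 (ProjGenLinGroup.map (A.s v : LE.R v →+* LE.R v)) (ProjGenLinGroup.map π) V) V
    (isProd3_prod3 _ _ _)
    (fun _ h => (S.isProd3_PO hO _).2 ⟨leV h.1.1, leV h.1.2, leV h.2⟩) leV
    (by
      obtain ⟨N, hN, h⟩ := deepV
      exact ⟨N, hN, fun g hg => by
        obtain ⟨h1, h2, h3⟩ := (S.isProd3_PK hO N g).1 hg
        exact ⟨⟨h h1, h h2⟩, h h3⟩⟩) deepV alg

/-- a bad split place -/
noncomputable def bsplit (hf : IsField (Lk.R v)) (U : Subgroup PGL(2, LE.R v))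
    (V : Subgroup PGL(2, Lk.R v))
    (hUV : IsProd3 (ProjGenLinGroup.map (n := Fin 2) (A.s v : LE.R v →+* LE.R v))
      (ProjGenLinGroup.map (n := Fin 2) π) U V)
    (leU : U ≤ PO (LE.O v)) (leV : V ≤ PO (Lk.O v))
    (deepU : ∃ N : ℕ, N ≠ 0 ∧ PK (LE.O v) N ≤ U) (deepV : ∃ N : ℕ, N ≠ 0 ∧ PK (Lk.O v) N ≤ V)
    (F₁ F₂ F₃ : BiInv V) (h₁ : F₁.Fin) (h₂ : F₂.Fin) (h₃ : F₃.Fin) : PD.{w, u} Lk LE A i v :=
  fixed U V leU leV deepU deepV (hUV.stable S.pgl_split3) (tens3 hUV F₁ F₂ F₃)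
    (F₁.conv (F₂.conv F₃)) (tens3_fin S.pgl_split3 hUV h₁ h₂ h₃) (h₁.conv (h₂.conv h₃))
    (isMatch_split S hUV hf h₁ h₂)

end Split

end PD

variable [Algebra k E]

/-- the context -/
noncomputable def Ctx.ofPD (Lk : LocFam.{w} k ι) (LE : LocFam.{w} E ι) (A : LocFam.Auto LE)
    (i : ∀ v, Lk.R v →+* LE.R v) (i_loc : ∀ v a, i v (Lk.loc v a) = LE.loc v (algebraMap k E a))
    (isField : ∀ v, IsField (Lk.R v)) (P : ∀ v, PD.{w, u} Lk LE A i v)
    (good : ∀ᶠ v in cofinite, (P v).IsGood)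
    (matchU : ∀ᶠ v in cofinite, IsMatchU.{w, u} (i v) (A.s v : LE.R v →+* LE.R v)
      (fun _ h => A.map_mem_PO h) (BiInv.ind (PO (LE.O v))) (BiInv.ind (PO (Lk.O v)))) :
    Ctx.{w} k E ι where
  Lk := Lk
  LE := LE
  A := A
  i := i
  i_loc := i_loc
  isField := isField
  Uk := { U := fun v => (P v).V
          le := fun v => (P v).leV
          eventually_eq := good.mono fun v h => h.V
          deep := fun v => (P v).deepV }
  UE := { U := fun v => (P v).U
          le := fun v => (P v).leU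
          eventually_eq := good.mono fun v h => h.U
          deep := fun v => (P v).deepU }
  pres := fun v => (P v).pres
  spl := {v | (P v).vary}
  π := fun v h => (P v).π h
  split := fun v h => (P v).split h
  prod := fun v h => (P v).prod h
  alg := fun v => (P v).alg
  F₀ := fun v => (P v).F
  f₀ := fun v => (P v).f
  finF := fun v => (P v).finF
  finf := fun v => (P v).finf
  match₀ := fun v h => (P v).match₀ h
  unitF := good.mono fun v h => h.F
  unitf := good.mono fun v h => h.f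
  matchU := matchU

end Data

end Fermat.Agent.LT.Mp
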